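import Fermat.Agent.S37.H518.RMap

/-!
# S37 / RIM (helper518): conservation of number for a two-chart model

Main results (for `h : TwoCharts π ι ρ B₀ B₁ x₀ x₁`, with principal divisors of degree `0` on both
fibres):

* `TwoCharts.mapDomain_rmap_eq` : for every `y : V` with `ρ y ≠ 0`,
  `(rmap)_* div (ι y) = div (ρ y)`;
* `TwoCharts.principal_le_closure` : principal divisors are generated by the `div (ι y)`.
-/

set_option autoImplicit false

namespace Fermat.Agent.S37.H518

open AlgebraicCurve Fermat.Agent.S24.H504 Polynomial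

section Finsupp

variable {α β : Type*}

theorem mapDomain_apply_eq_sum [DecidableEq β] (r : α → β) (D : α →₀ ℤ) (Q : β) :
    Finsupp.mapDomain r D Q = ∑ P ∈ D.support with r P = Q, D P := by
  rw [Finsupp.mapDomain, Finsupp.sum_apply, Finsupp.sum, Finset.sum_filter]
  refine Finset.sum_congr rfl fun P _ => ?_
  rw [Finsupp.single_apply]

theorem sum_filter_support_eq [DecidableEq β] (r : α → β) (D : α →₀ ℤ) (Q : β) (S : Finset α)
    (hS : D.support ⊆ S) :
    ∑ P ∈ S with r P = Q, D P = ∑ P ∈ D.support with r P = Q, D P := by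
  symm
  refine Finset.sum_subset (Finset.filter_subset_filter _ hS) fun P hP hP' => ?_
  rw [Finset.mem_filter] at hP hP'
  by_contra hne
  exact hP' ⟨Finsupp.mem_support_iff.mpr hne, hP.2⟩

end Finsupp

variable {L : Type*} [Field L] {A : ValuationSubring L} {k : Type*} [Field k]
variable {F : Type*} [Field F] [Algebra L F] {Fk : Type*} [Field Fk] [Algebra k Fk]
variable {V : Type*} [CommRing V] [Algebra A V]
variable {π : A →+* k} {ι : V →+* F} {ρ : V →+* Fk} {B₀ B₁ : Subalgebra A V} {x₀ x₁ : V}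

theorem degree_eq_sum_of_deg_one {K' F' : Type*} [Field K'] [Field F'] [Algebra K' F']
    (D : Divisor K' F') (hdeg : ∀ P : Place K' F', P.deg = 1) :
    Divisor.degree D = ∑ P ∈ D.support, D P := by
  rw [Divisor.degree, Finsupp.liftAddHom_apply, Finsupp.sum]
  refine Finset.sum_congr rfl fun P _ => ?_
  simp [hdeg P]

namespace TwoCharts

variable (h : TwoCharts π ι ρ B₀ B₁ x₀ x₁)
include h

theorem iota_x₁_ne_zero : ι x₁ ≠ 0 := by
  have : ι x₀ * ι x₁ = 1 := by rw [← map_mul, h.mul_eq_one, map_one]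
  exact right_ne_zero_of_mul_eq_one this

theorem iota_x₀_ne_zero : ι x₀ ≠ 0 := by
  have : ι x₀ * ι x₁ = 1 := by rw [← map_mul, h.mul_eq_one, map_one]
  exact left_ne_zero_of_mul_eq_one this

theorem rho_x₁_ne_zero : ρ x₁ ≠ 0 := by
  have : ρ x₀ * ρ x₁ = 1 := by rw [← map_mul, h.mul_eq_one, map_one]
  exact right_ne_zero_of_mul_eq_one this

theorem rho_x₀_ne_zero : ρ x₀ ≠ 0 := by
  have : ρ x₀ * ρ x₁ = 1 := by rw [← map_mul, h.mul_eq_one, map_one]
  exact left_ne_zero_of_mul_eq_one this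

theorem ordP_x₁ (P : Place L F) : P.ord (ι x₁) = - P.ord (ι x₀) := by
  have h1 := P.ord_mul h.iota_x₀_ne_zero h.iota_x₁_ne_zero
  rw [← map_mul, h.mul_eq_one, map_one, Place.ord_one] at h1
  omega

theorem ordQ_x₁ (Q : Place k Fk) : Q.ord (ρ x₁) = - Q.ord (ρ x₀) := by
  have h1 := Q.ord_mul h.rho_x₀_ne_zero h.rho_x₁_ne_zero
  rw [← map_mul, h.mul_eq_one, map_one, Place.ord_one] at h1
  omega

theorem iota_ne_zero {y : V} (hy : ρ y ≠ 0) : ι y ≠ 0 := by
  intro h0
  apply hy
  have : y = 0 := h.inj (by rw [h0, map_zero])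
  rw [this, map_zero]

open Classical in
/-- Conservation of number for the coordinate `x₁` at places centred on the chart `B₁`:
this is where the equality of degrees `FI` enters. -/
theorem sum_fiber_x₁ [HasPrincipalDivisors k Fk] (D₁ : Divisor L F)
    (hD₁ : ∀ P, D₁ P = P.ord (ι x₁)) {Q : Place k Fk} (hQ : QC ρ B₁ Q) :
    ∑ P ∈ D₁.support with h.rmap P = Q, D₁ P = Q.ord (ρ x₁) := by
  classical
  obtain ⟨E₁, hE₁, -⟩ := HasPrincipalDivisors.exists_divisor (K := k) (ρ x₁) h.rho_x₁_ne_zero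
  have hFI := h.FI D₁ E₁ hD₁ hE₁
  have hb : ∀ P, QC ρ B₁ (h.rmap P) → 0 ≤ D₁ P := fun P hP => by
    rw [hD₁]
    exact (h.rmap_chart1 hP).1.ord_nonneg h.chart1.x_mem
  have hc : ∀ P, ¬ QC ρ B₁ (h.rmap P) → D₁ P ≤ 0 := fun P hP => by
    rw [hD₁, h.ordP_x₁]
    have h0 : QC ρ B₀ (h.rmap P) := (h.cover_Q _).resolve_right hP
    have := (h.rmap_chart0 h0).1.ord_nonneg h.chart0.x_mem
    omega
  have hd : ∀ Q', QC ρ B₁ Q' → 0 ≤ E₁ Q' := fun Q' hQ' => by
    rw [hE₁]; exact hQ' x₁ h.chart1.x_mem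
  have hd' : ∀ Q', ¬ QC ρ B₁ Q' → E₁ Q' ≤ 0 := fun Q' hQ' => by
    rw [hE₁, h.ordQ_x₁]
    have h0 : QC ρ B₀ Q' := (h.cover_Q _).resolve_right hQ'
    have := h0 x₀ h.chart0.x_mem
    omega
  set f : Place k Fk → ℤ := fun Q' =>
    if QC ρ B₁ Q' then ∑ P ∈ D₁.support with h.rmap P = Q', D₁ P else 0 with hf
  set g : Place k Fk → ℤ := fun Q' => if QC ρ B₁ Q' then E₁ Q' else 0 with hg
  set T : Finset (Place k Fk) := D₁.support.image h.rmap ∪ E₁.support with hT
  have hle : ∀ Q' ∈ T, f Q' ≤ g Q' := by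
    intro Q' _
    simp only [hf, hg]
    split_ifs with hQ'
    · have := h.sum_le1 hQ' (D₁.support.filter fun P => h.rmap P = Q')
        (fun P hP => (Finset.mem_filter.mp hP).2) h.chart1.x_mem h.rho_x₁_ne_zero
      rw [hE₁]
      calc ∑ P ∈ D₁.support with h.rmap P = Q', D₁ P
          = ∑ P ∈ D₁.support with h.rmap P = Q', P.ord (ι x₁) :=
            Finset.sum_congr rfl fun P _ => hD₁ P
        _ ≤ _ := this
    · exact le_refl _
  have hsumf : ∑ Q' ∈ T, f Q' = ∑ P ∈ D₁.support, max (D₁ P) 0 := by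
    have e1 : ∑ P ∈ D₁.support, max (D₁ P) 0
        = ∑ P ∈ D₁.support, if QC ρ B₁ (h.rmap P) then D₁ P else 0 := by
      refine Finset.sum_congr rfl fun P _ => ?_
      split_ifs with hP
      · exact max_eq_left (hb P hP)
      · exact max_eq_right (hc P hP)
    rw [e1, ← Finset.sum_fiberwise_of_maps_to (t := T) (g := h.rmap)
      (fun P hP => Finset.mem_union_left _ (Finset.mem_image_of_mem _ hP))]
    refine Finset.sum_congr rfl fun Q' _ => ?_
    simp only [hf]
    split_ifs with hQ'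
    · refine Finset.sum_congr rfl fun P hP => ?_
      rw [(Finset.mem_filter.mp hP).2, if_pos hQ']
    · symm
      refine Finset.sum_eq_zero fun P hP => ?_
      rw [(Finset.mem_filter.mp hP).2, if_neg hQ']
  have hsumg : ∑ Q' ∈ T, g Q' = ∑ Q' ∈ E₁.support, max (E₁ Q') 0 := by
    have e1 : ∑ Q' ∈ E₁.support, max (E₁ Q') 0 = ∑ Q' ∈ T, max (E₁ Q') 0 := by
      refine Finset.sum_subset Finset.subset_union_right fun Q' _ hQ' => ?_
      rw [Finsupp.notMem_support_iff.mp hQ', max_self]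
    rw [e1]
    refine Finset.sum_congr rfl fun Q' _ => ?_
    simp only [hg]
    split_ifs with hQ'
    · exact (max_eq_left (hd Q' hQ')).symm
    · exact (max_eq_right (hd' Q' hQ')).symm
  have hall := (Finset.sum_eq_sum_iff_of_le hle).mp (by rw [hsumf, hsumg, hFI])
  by_cases hQT : Q ∈ T
  · have := hall Q hQT
    simp only [hf, hg, if_pos hQ] at this
    rw [this, hE₁]
  · have h1 : Q ∉ D₁.support.image h.rmap := fun hc' => hQT (Finset.mem_union_left _ hc')
    have h2 : Q ∉ E₁.support := fun hc' => hQT (Finset.mem_union_right _ hc')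
    rw [← hE₁, Finsupp.notMem_support_iff.mp h2]
    refine Finset.sum_eq_zero fun P hP => ?_
    exfalso
    rw [Finset.mem_filter] at hP
    exact h1 (Finset.mem_image.mpr ⟨P, hP.1, hP.2⟩)

open Classical in
/-- Zeros only merge, at every place of the special fibre, for functions of the chart `B₀`. -/
theorem sum_fiber_le [HasPrincipalDivisors L F] [HasPrincipalDivisors k Fk] {a : V}
    (ha : a ∈ B₀) (ha0 : ρ a ≠ 0) (D : Divisor L F) (hD : ∀ P, D P = P.ord (ι a))
    (Q : Place k Fk) :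
    ∑ P ∈ D.support with h.rmap P = Q, D P ≤ Q.ord (ρ a) := by
  by_cases hQ0 : QC ρ B₀ Q
  · have := h.sum_le0 hQ0 (D.support.filter fun P => h.rmap P = Q)
      (fun P hP => (Finset.mem_filter.mp hP).2) ha ha0
    calc ∑ P ∈ D.support with h.rmap P = Q, D P
        = ∑ P ∈ D.support with h.rmap P = Q, P.ord (ι a) :=
          Finset.sum_congr rfl fun P _ => hD P
      _ ≤ _ := this
  · have hQ1 : QC ρ B₁ Q := (h.cover_Q Q).resolve_left hQ0
    obtain ⟨n, hn⟩ := h.trans10 a ha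
    obtain ⟨D₁, hD₁, -⟩ := HasPrincipalDivisors.exists_divisor (K := L) (ι x₁) h.iota_x₁_ne_zero
    have ha₁0 : ρ (a * x₁ ^ n) ≠ 0 := by
      rw [map_mul, map_pow]
      exact mul_ne_zero ha0 (pow_ne_zero _ h.rho_x₁_ne_zero)
    have hle := h.sum_le1 hQ1 ((D.support ∪ D₁.support).filter fun P => h.rmap P = Q)
      (fun P hP => (Finset.mem_filter.mp hP).2) hn ha₁0
    have hιa : ι a ≠ 0 := h.iota_ne_zero ha0
    have e1 : ∀ P : Place L F, P.ord (ι (a * x₁ ^ n)) = D P + n * D₁ P := fun P => by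
      rw [map_mul, map_pow, P.ord_mul hιa (pow_ne_zero _ h.iota_x₁_ne_zero), ord_pow, hD, hD₁]
    have e2 : Q.ord (ρ (a * x₁ ^ n)) = Q.ord (ρ a) + n * Q.ord (ρ x₁) := by
      rw [map_mul, map_pow, Q.ord_mul ha0 (pow_ne_zero _ h.rho_x₁_ne_zero), ord_pow]
    simp only [e1] at hle
    rw [Finset.sum_add_distrib, ← Finset.mul_sum, e2,
      sum_filter_support_eq h.rmap D Q _ Finset.subset_union_left,
      sum_filter_support_eq h.rmap D₁ Q _ Finset.subset_union_right,
      h.sum_fiber_x₁ D₁ hD₁ hQ1] at hle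
    linarith

open Classical in
/-- **Conservation of number** for functions of the chart `B₀` with nonzero reduction. -/
theorem mapDomain_rmap_eq_of_mem [HasPrincipalDivisors L F] [HasPrincipalDivisors k Fk] {a : V}
    (ha : a ∈ B₀) (ha0 : ρ a ≠ 0) (D : Divisor L F) (hD : ∀ P, D P = P.ord (ι a))
    (Q : Place k Fk) :
    Finsupp.mapDomain h.rmap D Q = Q.ord (ρ a) := by
  obtain ⟨E, hE, hEdeg⟩ := HasPrincipalDivisors.exists_divisor (K := k) (ρ a) ha0
  obtain ⟨D', hD', hD'deg⟩ :=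
    HasPrincipalDivisors.exists_divisor (K := L) (ι a) (h.iota_ne_zero ha0)
  have hDD' : D = D' := Finsupp.ext fun P => by rw [hD, hD']
  have hDdeg : Divisor.degree D = 0 := by rw [hDD']; exact hD'deg
  rw [degree_eq_sum_of_deg_one D h.degP] at hDdeg
  rw [degree_eq_sum_of_deg_one E h.degQ] at hEdeg
  set T : Finset (Place k Fk) := D.support.image h.rmap ∪ E.support with hT
  have hle : ∀ Q' ∈ T, ∑ P ∈ D.support with h.rmap P = Q', D P ≤ E Q' := fun Q' _ => by
    rw [hE]; exact h.sum_fiber_le ha ha0 D hD Q'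
  have hsum1 : ∑ Q' ∈ T, ∑ P ∈ D.support with h.rmap P = Q', D P = 0 := by
    rw [Finset.sum_fiberwise_of_maps_to (t := T) (g := h.rmap) (s := D.support)
      (fun P hP => Finset.mem_union_left _ (Finset.mem_image_of_mem _ hP)) (fun P => D P), hDdeg]
  have hsum2 : ∑ Q' ∈ T, E Q' = 0 := by
    rw [← hEdeg]
    symm
    refine Finset.sum_subset Finset.subset_union_right fun Q' _ hQ' => ?_
    exact Finsupp.notMem_support_iff.mp hQ'
  have hall := (Finset.sum_eq_sum_iff_of_le hle).mp (by rw [hsum1, hsum2])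
  rw [mapDomain_apply_eq_sum]
  by_cases hQT : Q ∈ T
  · rw [hall Q hQT, hE]
  · have h1 : Q ∉ D.support.image h.rmap := fun hc' => hQT (Finset.mem_union_left _ hc')
    have h2 : Q ∉ E.support := fun hc' => hQT (Finset.mem_union_right _ hc')
    rw [← hE, Finsupp.notMem_support_iff.mp h2]
    refine Finset.sum_eq_zero fun P hP => ?_
    exfalso
    rw [Finset.mem_filter] at hP
    exact h1 (Finset.mem_image.mpr ⟨P, hP.1, hP.2⟩)

/-- If `y b = μ a` with all three of `y, a, b` of nonzero reduction, then `μ` is a unit of `A`,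
so the relation survives reduction. -/
theorem exists_unit_const {y a b : V} {μ : L} (hμ : μ ≠ 0) (hy : ρ y ≠ 0) (ha : ρ a ≠ 0)
    (hb : ρ b ≠ 0) (heq : ι y * ι b = algebraMap L F μ * ι a) :
    ∃ c : k, c ≠ 0 ∧ ρ y * ρ b = algebraMap k Fk c * ρ a := by
  rcases A.mem_or_inv_mem μ with hμA | hμA
  · set u : A := ⟨μ, hμA⟩ with hu
    have h1 : y * b = u • a := by
      apply h.inj
      rw [map_mul, h.iota_smul, heq]
    have h2 : ρ y * ρ b = algebraMap k Fk (π u) * ρ a := by
      rw [← map_mul, h1, h.rho_smul]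
    refine ⟨π u, fun h0 => ?_, h2⟩
    rw [h0, map_zero, zero_mul] at h2
    exact mul_ne_zero hy hb h2
  · set u : A := ⟨μ⁻¹, hμA⟩ with hu
    have h1 : u • (y * b) = a := by
      apply h.inj
      rw [h.iota_smul, map_mul, heq, ← mul_assoc, ← map_mul]
      have : (u : L) * μ = 1 := inv_mul_cancel₀ hμ
      rw [this, map_one, one_mul]
    have h2 : algebraMap k Fk (π u) * (ρ y * ρ b) = ρ a := by
      rw [← map_mul, ← h.rho_smul, h1]
    have hπu : π u ≠ 0 := by
      intro h0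
      rw [h0, map_zero, zero_mul] at h2
      exact ha h2.symm
    refine ⟨(π u)⁻¹, inv_ne_zero hπu, ?_⟩
    have h3 : algebraMap k Fk (π u)⁻¹ * algebraMap k Fk (π u) = 1 := by
      rw [← map_mul, inv_mul_cancel₀ hπu, map_one]
    rw [← h2, ← mul_assoc, h3, one_mul]

/-- **Conservation of number**: `(rmap)_* div (ι y) = div (ρ y)` for every integral function `y`
with nonzero reduction. -/
theorem mapDomain_rmap_eq [HasPrincipalDivisors L F] [HasPrincipalDivisors k Fk] {y : V}
    (hy : ρ y ≠ 0) (D : Divisor L F) (hD : ∀ P, D P = P.ord (ι y)) (Q : Place k Fk) :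
    Finsupp.mapDomain h.rmap D Q = Q.ord (ρ y) := by
  have hιy := h.iota_ne_zero hy
  obtain ⟨a, ha, b, hb, ha0, hb0, μ, hμ, heq⟩ := h.frac (ι y) hιy
  obtain ⟨c, hc, hceq⟩ := h.exists_unit_const hμ hy ha0 hb0 heq
  have hιa := h.iota_ne_zero ha0
  have hιb := h.iota_ne_zero hb0
  obtain ⟨Da, hDa, -⟩ := HasPrincipalDivisors.exists_divisor (K := L) (ι a) hιa
  obtain ⟨Db, hDb, -⟩ := HasPrincipalDivisors.exists_divisor (K := L) (ι b) hιb
  have hμF : algebraMap L F μ ≠ 0 := by rwa [Ne, map_eq_zero]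
  have hcF : algebraMap k Fk c ≠ 0 := by rwa [Ne, map_eq_zero]
  have hDeq : D = Da - Db := Finsupp.ext fun P => by
    rw [Finsupp.sub_apply, hD, hDa, hDb]
    have h1 := congrArg P.ord heq
    rw [P.ord_mul hιy hιb, P.ord_mul hμF hιa, ord_algebraMap] at h1
    omega
  rw [hDeq, Finsupp.mapDomain_sub, Finsupp.sub_apply, h.mapDomain_rmap_eq_of_mem ha ha0 Da hDa,
    h.mapDomain_rmap_eq_of_mem hb hb0 Db hDb]
  have h2 := congrArg Q.ord hceq
  rw [Q.ord_mul hy hb0, Q.ord_mul hcF ha0, ord_algebraMap] at h2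
  omega

/-- Principal divisors are generated by divisors of integral functions with nonzero reduction. -/
theorem principal_le_closure [HasPrincipalDivisors L F] :
    Divisor.principal (K := L) (F := F) ≤
      AddSubgroup.closure {D | ∃ y : V, ρ y ≠ 0 ∧ ∀ P : Place L F, D P = P.ord (ι y)} := by
  rintro D ⟨f, hf, hD⟩
  obtain ⟨a, ha, b, hb, ha0, hb0, μ, hμ, heq⟩ := h.frac f hf
  have hιa := h.iota_ne_zero ha0
  have hιb := h.iota_ne_zero hb0
  obtain ⟨Da, hDa, -⟩ := HasPrincipalDivisors.exists_divisor (K := L) (ι a) hιa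
  obtain ⟨Db, hDb, -⟩ := HasPrincipalDivisors.exists_divisor (K := L) (ι b) hιb
  have hμF : algebraMap L F μ ≠ 0 := by rwa [Ne, map_eq_zero]
  have hDeq : D = Da - Db := Finsupp.ext fun P => by
    rw [Finsupp.sub_apply, hD, hDa, hDb]
    have h1 := congrArg P.ord heq
    rw [P.ord_mul hf hιb, P.ord_mul hμF hιa, ord_algebraMap] at h1
    omega
  rw [hDeq]
  exact AddSubgroup.sub_mem _ (AddSubgroup.subset_closure ⟨a, ha0, hDa⟩)
    (AddSubgroup.subset_closure ⟨b, hb0, hDb⟩)

theorem deg_rmap (P : Place L F) : (h.rmap P).deg = P.deg := by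
  rw [h.degP, h.degQ]

end TwoCharts

end Fermat.Agent.S37.H518
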