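import Fermat.Agent.S37.H518.Conserve
import Fermat.Prelude.Def_ModularCurve_ReductionModL

/-!
# S37 / RIM (helper518): `ReductionInputsAlong` from a two-chart model

`IntFun A π N` is the ring of Laurent series `y ∈ A((q))` that are modular functions of level `N`
(`coeffMap A.subtype y ∈ laurentBaseChange L (modularFunctionFieldFull N)`) with reduction in the
mod-`ℓ` function field (`coeffMap π y ∈ modularFunctionFieldFullC k N`).  It carries the generic
fibre map `iotaF` and the reduction map `rhoF`, and `redStr_intFun` is the associated `RedStr`.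

`reductionInputsAlong_of_twoCharts`: a `TwoCharts` structure on `IntFun A π N` (any two chart
algebras) yields the Prelude statement `ModularCurve.ReductionInputsAlong A π N`, with the explicit
place map `TwoCharts.rmap`.
-/

set_option autoImplicit false

noncomputable section

namespace Fermat.Agent.S37.H518

open AlgebraicCurve ModularCurve HahnSeries Fermat.Agent.S24.H504

variable {L : Type*} [Field L] [Algebra ℚ L] (A : ValuationSubring L)
variable {k : Type*} [Field k] (π : A →+* k) (N : ℕ)

/-- Integral modular functions of level `N` whose reduction lies in the mod-`ℓ` function field. -/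
def IntFun : Subring (LaurentSeries A) where
  carrier := {y | coeffMap A.subtype y ∈ laurentBaseChange L (modularFunctionFieldFull N) ∧
    coeffMap π y ∈ modularFunctionFieldFullC k N}
  mul_mem' := by
    rintro a b ⟨ha, ha'⟩ ⟨hb, hb'⟩
    exact ⟨by rw [map_mul]; exact mul_mem ha hb, by rw [map_mul]; exact mul_mem ha' hb'⟩
  one_mem' := ⟨by rw [map_one]; exact one_mem _, by rw [map_one]; exact one_mem _⟩
  add_mem' := by
    rintro a b ⟨ha, ha'⟩ ⟨hb, hb'⟩
    exact ⟨by rw [map_add]; exact add_mem ha hb, by rw [map_add]; exact add_mem ha' hb'⟩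
  zero_mem' := ⟨by rw [map_zero]; exact zero_mem _, by rw [map_zero]; exact zero_mem _⟩
  neg_mem' := by
    rintro a ⟨ha, ha'⟩
    exact ⟨by rw [map_neg]; exact neg_mem ha, by rw [map_neg]; exact neg_mem ha'⟩

theorem mem_intFun {y : LaurentSeries A} :
    y ∈ IntFun A π N ↔ coeffMap A.subtype y ∈ laurentBaseChange L (modularFunctionFieldFull N) ∧
      coeffMap π y ∈ modularFunctionFieldFullC k N := Iff.rfl

omit [Algebra ℚ L] in
theorem coeffMap_subtype_C (a : A) :
    coeffMap A.subtype (HahnSeries.C a) = algebraMap L (LaurentSeries L) (a : L) := by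
  rw [algebraMap_laurentSeries_eq_single]
  exact coeffMap_single _ _ _

omit [Algebra ℚ L] in
theorem coeffMap_pi_C (a : A) :
    coeffMap π (HahnSeries.C a) = algebraMap k (LaurentSeries k) (π a) := by
  rw [algebraMap_laurentSeries_eq_single]
  exact coeffMap_single _ _ _

theorem C_mem_intFun (a : A) : (HahnSeries.C a : LaurentSeries A) ∈ IntFun A π N := by
  refine ⟨?_, ?_⟩
  · rw [coeffMap_subtype_C]
    exact IntermediateField.algebraMap_mem _ _
  · rw [coeffMap_pi_C]
    exact IntermediateField.algebraMap_mem _ _

instance instAlgebraIntFun : Algebra A (IntFun A π N) :=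
  ((HahnSeries.C : A →+* LaurentSeries A).codRestrict (IntFun A π N)
    (C_mem_intFun A π N)).toAlgebra

theorem coe_algebraMap_intFun (a : A) :
    ((algebraMap A (IntFun A π N) a : IntFun A π N) : LaurentSeries A) = HahnSeries.C a := rfl

/-- The generic-fibre map. -/
def iotaF : IntFun A π N →+* laurentBaseChange L (modularFunctionFieldFull N) :=
  ((coeffMap A.subtype).comp (IntFun A π N).subtype).codRestrict _ fun y => y.2.1

/-- The reduction map. -/
def rhoF : IntFun A π N →+* modularFunctionFieldFullC k N :=
  ((coeffMap π).comp (IntFun A π N).subtype).codRestrict _ fun y => y.2.2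

@[simp]
theorem coe_iotaF (y : IntFun A π N) :
    ((iotaF A π N y : laurentBaseChange L (modularFunctionFieldFull N)) : LaurentSeries L)
      = coeffMap A.subtype (y : LaurentSeries A) := rfl

@[simp]
theorem coe_rhoF (y : IntFun A π N) :
    ((rhoF A π N y : modularFunctionFieldFullC k N) : LaurentSeries k)
      = coeffMap π (y : LaurentSeries A) := rfl

theorem iotaF_injective : Function.Injective (iotaF A π N) := by
  intro y z hyz
  have h1 := congrArg Subtype.val hyz
  rw [coe_iotaF, coe_iotaF] at h1
  apply Subtype.ext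
  ext n
  have h2 := congrArg (fun s => s.coeff n) h1
  simp only [coeffMap_coeff] at h2
  exact h2

theorem redStr_intFun (hπ : Function.Surjective π) :
    RedStr π (iotaF A π N) (rhoF A π N) where
  pi_surj := hπ
  iota_alg a := by
    apply Subtype.ext
    rw [coe_iotaF, coe_algebraMap_intFun, coeffMap_subtype_C]
    rfl
  rho_alg a := by
    apply Subtype.ext
    rw [coe_rhoF, coe_algebraMap_intFun, coeffMap_pi_C]
    rfl

variable {A π N}

/-- **`ReductionInputsAlong` from a two-chart model.** -/
theorem isPlaceReductionAlong_rmap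
    [HasPrincipalDivisors L (laurentBaseChange L (modularFunctionFieldFull N))]
    [HasPrincipalDivisors k (modularFunctionFieldFullC k N)]
    {B₀ B₁ : Subalgebra A (IntFun A π N)} {x₀ x₁ : IntFun A π N}
    (h : TwoCharts π (iotaF A π N) (rhoF A π N) B₀ B₁ x₀ x₁) :
    IsPlaceReductionAlong A π N h.rmap := by
  refine ⟨h.deg_rmap, fun y hy hyk hne D hD Q => ?_⟩
  have hy0 : rhoF A π N ⟨y, hy, hyk⟩ ≠ 0 := fun h0 => hne (congrArg Subtype.val h0)
  exact h.mapDomain_rmap_eq hy0 D hD Q

theorem principalGeneratedByIntegral_of_twoCharts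
    [HasPrincipalDivisors L (laurentBaseChange L (modularFunctionFieldFull N))]
    {B₀ B₁ : Subalgebra A (IntFun A π N)} {x₀ x₁ : IntFun A π N}
    (h : TwoCharts π (iotaF A π N) (rhoF A π N) B₀ B₁ x₀ x₁) :
    PrincipalGeneratedByIntegral A π N := by
  refine h.principal_le_closure.trans (AddSubgroup.closure_mono ?_)
  rintro D ⟨y, hy0, hD⟩
  exact ⟨y.1, y.2.1, y.2.2, fun h0 => hy0 (Subtype.ext h0), hD⟩

theorem reductionInputsAlong_of_twoCharts
    [HasPrincipalDivisors L (laurentBaseChange L (modularFunctionFieldFull N))]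
    [HasPrincipalDivisors k (modularFunctionFieldFullC k N)]
    {B₀ B₁ : Subalgebra A (IntFun A π N)} {x₀ x₁ : IntFun A π N}
    (h : TwoCharts π (iotaF A π N) (rhoF A π N) B₀ B₁ x₀ x₁) :
    ReductionInputsAlong A π N :=
  ⟨h.rmap, isPlaceReductionAlong_rmap h, principalGeneratedByIntegral_of_twoCharts h⟩

end Fermat.Agent.S37.H518
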