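import Fermat.Agent.S37.H518.Ineq

/-!
# S37 / RIM (helper518): two-chart models and the place reduction map

`TwoCharts` packages the abstract input ("smooth integral model with two affine charts");
`TwoCharts.rmap` is the induced reduction map on places, characterised by
`TwoCharts.rmap_spec`: if `rmap P` is centred on a chart then so is `P`, with compatible values.
-/

set_option autoImplicit false

namespace Fermat.Agent.S37.H518

open AlgebraicCurve Fermat.Agent.S24.H504 Polynomial

variable {L : Type*} [Field L] {A : ValuationSubring L} {k : Type*} [Field k]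
variable {F : Type*} [Field F] [Algebra L F] {Fk : Type*} [Field Fk] [Algebra k Fk]
variable {V : Type*} [CommRing V] [Algebra A V]

/-- `P` is centred on the chart `B`, with integral values. -/
def PC (ι : V →+* F) (B : Subalgebra A V) (P : Place L F) : Prop :=
  ∀ b ∈ B, ∃ a : A, InMax P (ι b - algebraMap L F (a : L))

/-- `Q` is centred on the (reduction of the) chart `B`. -/
def QC (ρ : V →+* Fk) (B : Subalgebra A V) (Q : Place k Fk) : Prop :=
  ∀ b ∈ B, 0 ≤ Q.ord (ρ b)

/-- `P` reduces to `Q` on the chart `B`: values of chart functions are compatible. -/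
def RedTo (π : A →+* k) (ι : V →+* F) (ρ : V →+* Fk) (B : Subalgebra A V)
    (P : Place L F) (Q : Place k Fk) : Prop :=
  ∀ b ∈ B, ∀ a : A, InMax P (ι b - algebraMap L F (a : L)) →
    InMax Q (ρ b - algebraMap k Fk (π a))

theorem PC.ord_nonneg {ι : V →+* F} {B : Subalgebra A V} {P : Place L F} (h : PC ι B P)
    {b : V} (hb : b ∈ B) : 0 ≤ P.ord (ι b) := by
  obtain ⟨a, ha⟩ := h b hb
  have h1 : OrdGE P 0 (ι b - algebraMap L F (a : L)) := InMax.ordGE_zero ha
  have h2 := h1.add (ordGE_algebraMap (v := P) (a : L))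
  rw [sub_add_cancel] at h2
  exact ordGE_zero_iff.mp h2

/-- Pure valuation-theoretic transfer of values along `b * X ^ n = b₀`. -/
theorem inMax_transfer {K' F' : Type*} [Field K'] [Field F'] [Algebra K' F'] (v : Place K' F')
    {X b b₀ : F'} {a β₀ : K'} (n : ℕ) (ha : a ≠ 0) (hX : InMax v (X - algebraMap K' F' a))
    (hb₀ : InMax v (b₀ - algebraMap K' F' β₀)) (hmul : b * X ^ n = b₀) :
    InMax v (b - algebraMap K' F' (β₀ / a ^ n)) := by
  have hX0 : OrdGE v 0 X := by
    have := (InMax.ordGE_zero hX).add (ordGE_algebraMap (v := v) a)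
    rwa [sub_add_cancel] at this
  have hXn : ¬ InMax v X := by
    intro hc
    have := hc.sub hX
    rw [sub_sub_cancel] at this
    exact not_inMax_algebraMap ha this
  obtain ⟨hXne, hXord⟩ :=
    LocalChart.ne_zero_and_ord_eq_zero_of_not_inMax (ordGE_zero_iff.mp hX0) hXn
  have hXpow : X ^ n ≠ 0 := pow_ne_zero _ hXne
  have hXpord : v.ord (X ^ n) = 0 := by rw [ord_pow, hXord, mul_zero]
  -- numerator
  have hnum : InMax v (b₀ - algebraMap K' F' (β₀ / a ^ n) * X ^ n) := by
    have e : b₀ - algebraMap K' F' (β₀ / a ^ n) * X ^ n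
        = (b₀ - algebraMap K' F' β₀)
          - algebraMap K' F' (β₀ / a ^ n) * (X ^ n - algebraMap K' F' a ^ n) := by
      have : algebraMap K' F' β₀ = algebraMap K' F' (β₀ / a ^ n) * algebraMap K' F' a ^ n := by
        rw [← map_pow, ← map_mul, div_mul_cancel₀ _ (pow_ne_zero _ ha)]
      rw [this]; ring
    rw [e]
    refine hb₀.sub (InMax.mul_left ?_ (ordGE_zero_iff.mp (ordGE_algebraMap _)))
    obtain ⟨q, hq⟩ := sub_dvd_pow_sub_pow X (algebraMap K' F' a) n
    have hq' : OrdGE v 0 ((X ^ n - algebraMap K' F' a ^ n) / (X - algebraMap K' F' a)) ∨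
        X - algebraMap K' F' a = 0 := by
      by_cases h0 : X - algebraMap K' F' a = 0
      · exact Or.inr h0
      · left
        -- the quotient is a polynomial expression in `X` and `a`
        have : (X ^ n - algebraMap K' F' a ^ n) / (X - algebraMap K' F' a)
            = ∑ i ∈ Finset.range n, X ^ i * algebraMap K' F' a ^ (n - 1 - i) := by
          rw [div_eq_iff h0, ← Commute.geom_sum₂_mul (Commute.all _ _)]
        rw [this]
        refine ordGE_sum _ _ fun i _ => ?_
        have h1 := hX0.pow i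
        have h2 := (ordGE_algebraMap (v := v) a).pow (n - 1 - i)
        simpa using h1.mul h2
    rcases hq' with hq' | h0
    · by_cases h0 : X - algebraMap K' F' a = 0
      · rw [sub_eq_zero] at h0
        rw [h0, sub_self]
        exact inMax_zero
      · have e2 : X ^ n - algebraMap K' F' a ^ n = (X - algebraMap K' F' a) *
            ((X ^ n - algebraMap K' F' a ^ n) / (X - algebraMap K' F' a)) := by
          field_simp
        rw [e2]
        exact hX.mul_right (ordGE_zero_iff.mp hq')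
    · rw [sub_eq_zero] at h0
      rw [h0, sub_self]
      exact inMax_zero
  have e3 : b - algebraMap K' F' (β₀ / a ^ n)
      = (b₀ - algebraMap K' F' (β₀ / a ^ n) * X ^ n) / X ^ n := by
    rw [← hmul]
    field_simp
  rw [e3]
  have := (InMax.ordGE hnum).div hXpow hXpord
  rw [sub_zero] at this
  exact ordGE_one_iff.mp this

/-- One affine chart `B` (with coordinate `x`) of an integral model with normal fibres. -/
structure Chart (π : A →+* k) (ι : V →+* F) (ρ : V →+* Fk) (B : Subalgebra A V) (x : V) :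
    Prop where
  x_mem : x ∈ B
  /-- q-expansion principle: the kernel of reduction on the chart is `𝔪 B` -/
  ker : ∀ b ∈ B, ρ b = 0 → ∃ μ : A, π μ = 0 ∧ ∃ b' ∈ B, b = μ • b'
  /-- `B / g(x) B` is a finitely generated `A`-module for monic `g` (`B` is finite over `A[x]`) -/
  fin : ∀ g : A[X], g.Monic → ∃ (r : ℕ) (e' : Fin r → V), (∀ j, e' j ∈ B) ∧
      ∀ z ∈ B, ∃ α : Fin r → A, ∃ z' ∈ B, z = ∑ j, α j • e' j + aeval x g * z'
  /-- normality of the special fibre on the chart -/
  Q_loc : ∀ Q : Place k Fk, QC ρ B Q → ∀ f : Fk, 0 ≤ Q.ord f →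
      ∃ a ∈ B, ∃ s ∈ B, ¬ InMax Q (ρ s) ∧ f * ρ s = ρ a
  /-- normality of the generic fibre on the chart: local uniformisers -/
  P_unif : ∀ P : Place L F, PC ι B P → ∃ w ∈ B, P.ord (ι w) = 1
  /-- the chart separates places of the generic fibre -/
  P_sep : ∀ P P' : Place L F, PC ι B P → PC ι B P' → P ≠ P' →
      ∃ s ∈ B, ¬ InMax P (ι s) ∧ InMax P' (ι s)
  /-- every point of the generic fibre centred on the chart has a reduction on the chart -/
  exists_red : ∀ P : Place L F, PC ι B P → ∃ Q : Place k Fk, QC ρ B Q ∧ RedTo π ι ρ B P Q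

/-- Two-chart model: abstract form of a smooth proper integral model of a curve covered by two
affine charts `x ≠ ∞` and `x ≠ 0`. -/
structure TwoCharts (π : A →+* k) (ι : V →+* F) (ρ : V →+* Fk) (B₀ B₁ : Subalgebra A V)
    (x₀ x₁ : V) : Prop extends RedStr π ι ρ where
  inj : Function.Injective ι
  chart0 : Chart π ι ρ B₀ x₀
  chart1 : Chart π ι ρ B₁ x₁
  mul_eq_one : x₀ * x₁ = 1
  trans01 : ∀ b ∈ B₁, ∃ n : ℕ, b * x₀ ^ n ∈ B₀
  trans10 : ∀ b ∈ B₀, ∃ n : ℕ, b * x₁ ^ n ∈ B₁
  cover_P : ∀ P : Place L F, PC ι B₀ P ∨ PC ι B₁ P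
  cover_Q : ∀ Q : Place k Fk, QC ρ B₀ Q ∨ QC ρ B₁ Q
  /-- places of the special fibre are rational -/
  Q_val : ∀ (Q : Place k Fk) (f : Fk), 0 ≤ Q.ord f → ∃ c : k, InMax Q (f - algebraMap k Fk c)
  degP : ∀ P : Place L F, P.deg = 1
  degQ : ∀ Q : Place k Fk, Q.deg = 1
  /-- every function is, up to a constant, a quotient of chart functions with nonzero reduction -/
  frac : ∀ f : F, f ≠ 0 → ∃ a ∈ B₀, ∃ b ∈ B₀, ρ a ≠ 0 ∧ ρ b ≠ 0 ∧
      ∃ μ : L, μ ≠ 0 ∧ f * ι b = algebraMap L F μ * ι a
  /-- the degree of the zero divisor of `x₁` is the same on both fibres (`= [F : L(x)]`) -/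
  FI : ∀ (D₁ : Divisor L F) (E₁ : Divisor k Fk), (∀ P, D₁ P = P.ord (ι x₁)) →
      (∀ Q, E₁ Q = Q.ord (ρ x₁)) →
      ∑ P ∈ D₁.support, max (D₁ P) 0 = ∑ Q ∈ E₁.support, max (E₁ Q) 0

section Transfer

variable {π : A →+* k} {ι : V →+* F} {ρ : V →+* Fk}

/-- Transfer between charts: if `P` reduces to `Q` on the chart `B` (coordinate `x`) and `Q` is
centred on the chart `B'` (coordinate `x' = 1/x`), then `P` is centred on `B'` and reduces to
`Q` there. -/
theorem transfer (hR : RedStr π ι ρ) {B B' : Subalgebra A V} {x x' : V} (hx : x ∈ B)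
    (hx' : x' ∈ B') (hmul : x * x' = 1) (htr : ∀ b ∈ B', ∃ n : ℕ, b * x ^ n ∈ B)
    {P : Place L F} {Q : Place k Fk} (hP : PC ι B P) (hQ : QC ρ B Q)
    (hPQ : RedTo π ι ρ B P Q) (hQ' : QC ρ B' Q) :
    PC ι B' P ∧ RedTo π ι ρ B' P Q := by
  obtain ⟨a₀, ha₀⟩ := hP x hx
  have hQx := hPQ x hx a₀ ha₀
  -- `ρ x` is a unit at `Q`
  have hρmul : ρ x * ρ x' = 1 := by rw [← map_mul, hmul, map_one]
  have hρx0 : ρ x ≠ 0 := left_ne_zero_of_mul_eq_one hρmul
  have hρx'0 : ρ x' ≠ 0 := right_ne_zero_of_mul_eq_one hρmul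
  have hord : Q.ord (ρ x) = 0 := by
    have h1 := Q.ord_mul hρx0 hρx'0
    rw [hρmul, Place.ord_one] at h1
    have h2 := hQ x hx
    have h3 := hQ' x' hx'
    omega
  have hπa₀ : π a₀ ≠ 0 := by
    intro h0
    rw [h0, map_zero, sub_zero] at hQx
    exact not_inMax_of_ord_eq_zero hρx0 hord hQx
  have ha₀u : IsUnit a₀ := hR.isUnit_of_pi_ne_zero hπa₀
  have ha₀L : (a₀ : L) ≠ 0 := by
    intro h0
    apply hπa₀
    have : a₀ = 0 := Subtype.ext h0
    rw [this, map_zero]
  obtain ⟨u, hu⟩ := ha₀u.exists_left_inv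
  -- values on `B'`
  have key : ∀ b ∈ B', ∃ β : A, InMax P (ι b - algebraMap L F (β : L)) ∧
      InMax Q (ρ b - algebraMap k Fk (π β)) := by
    intro b hb
    obtain ⟨n, hn⟩ := htr b hb
    obtain ⟨β₀, hβ₀⟩ := hP _ hn
    have hQβ₀ := hPQ _ hn β₀ hβ₀
    refine ⟨β₀ * u ^ n, ?_, ?_⟩
    · have := inMax_transfer P (b := ι b) (b₀ := ι (b * x ^ n)) n ha₀L ha₀ hβ₀
        (by rw [map_mul, map_pow])
      convert this using 3
      have huL : (u : L) * (a₀ : L) = 1 := by exact_mod_cast congrArg Subtype.val hu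
      push_cast
      rw [eq_div_iff (pow_ne_zero _ ha₀L), mul_assoc, ← mul_pow, huL, one_pow, mul_one]
    · have := inMax_transfer Q (b := ρ b) (b₀ := ρ (b * x ^ n)) n hπa₀ hQx hQβ₀
        (by rw [map_mul, map_pow])
      convert this using 3
      have huk : π u * π a₀ = 1 := by rw [← map_mul, hu, map_one]
      rw [map_mul, map_pow, eq_div_iff (pow_ne_zero _ hπa₀), mul_assoc, ← mul_pow, huk, one_pow,
        mul_one]
  refine ⟨fun b hb => ?_, fun b hb a ha => ?_⟩
  · obtain ⟨β, hβ, -⟩ := key b hb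
    exact ⟨β, hβ⟩
  · obtain ⟨β, hβ, hβQ⟩ := key b hb
    have : (a : L) = (β : L) := value_unique ha hβ
    have : a = β := Subtype.ext this
    rw [this]
    exact hβQ

end Transfer

end Fermat.Agent.S37.H518
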