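import Fermat.Agent.S37.H518.OrdGE

/-!
# S37 / RIM (helper518): zeros can only merge under reduction

Abstract setting.  `A` is a valuation ring of a field `L` with residue map `π : A → k`,
`F / L` and `Fk / k` are fields ("function fields" of the generic and the special fibre),
`V` is an `A`-algebra of "integral functions" with ring homs `ι : V → F` (generic fibre) and
`ρ : V → Fk` (reduction).  `B ⊆ V` is a chart algebra, `Q` a place of `Fk` centred on the chart at
which the special fibre is normal, and `P i` finitely many distinct places of `F` centred on the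
chart, reducing to `Q`.

Main result `LocalChart.sum_ord_le`:  for `y ∈ B` with `ρ y ≠ 0`,
`∑ i, ord_{P i} (ι y) ≤ ord_Q (ρ y)`.

Proof: `M = B / J`, `J = {z ∈ B | ord_{P i} z ≥ ord_{P i} y}` is a finitely generated `A`-module
(`B` is finite over `A[x]`); `M / 𝔪 M` is spanned by `ord_Q (ρ y)` elements (jets at `Q`), hence so
is `M` (Nakayama); but `M ⊗ L` contains `∑ ord_{P i} y` independent elements.
-/

set_option autoImplicit false

namespace Fermat.Agent.S37.H518

open AlgebraicCurve Fermat.Agent.S24.H504 Polynomial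

variable {L : Type*} [Field L] {A : ValuationSubring L} {k : Type*} [Field k]
variable {F : Type*} [Field F] [Algebra L F] {Fk : Type*} [Field Fk] [Algebra k Fk]
variable {V : Type*} [CommRing V] [Algebra A V]

/-- A reduction structure: integral functions `V` with generic fibre `ι` and reduction `ρ`. -/
structure RedStr (π : A →+* k) (ι : V →+* F) (ρ : V →+* Fk) : Prop where
  pi_surj : Function.Surjective π
  iota_alg : ∀ a : A, ι (algebraMap A V a) = algebraMap L F (a : L)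
  rho_alg : ∀ a : A, ρ (algebraMap A V a) = algebraMap k Fk (π a)

namespace RedStr

variable {π : A →+* k} {ι : V →+* F} {ρ : V →+* Fk} (h : RedStr π ι ρ)
include h

theorem iota_smul (a : A) (z : V) : ι (a • z) = algebraMap L F (a : L) * ι z := by
  rw [Algebra.smul_def, map_mul, h.iota_alg]

theorem rho_smul (a : A) (z : V) : ρ (a • z) = algebraMap k Fk (π a) * ρ z := by
  rw [Algebra.smul_def, map_mul, h.rho_alg]

theorem ker_pi_eq : RingHom.ker π = IsLocalRing.maximalIdeal A :=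
  IsLocalRing.eq_maximalIdeal (RingHom.ker_isMaximal_of_surjective π h.pi_surj)

theorem pi_eq_zero_iff (a : A) : π a = 0 ↔ a ∈ IsLocalRing.maximalIdeal A := by
  rw [← h.ker_pi_eq, RingHom.mem_ker]

theorem isUnit_of_pi_ne_zero {a : A} (ha : π a ≠ 0) : IsUnit a := by
  rw [← IsLocalRing.notMem_maximalIdeal, ← h.pi_eq_zero_iff]
  exact ha

end RedStr

/-- Local chart data at a place `Q` of the special fibre, together with finitely many places
`P i` of the generic fibre reducing to `Q`. -/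
structure LocalChart (π : A →+* k) (ι : V →+* F) (ρ : V →+* Fk) (B : Subalgebra A V)
    (Q : Place k Fk) {I : Type*} (P : I → Place L F) : Prop extends RedStr π ι ρ where
  /-- q-expansion principle: the kernel of reduction on the chart is `𝔪 B` -/
  ker : ∀ b ∈ B, ρ b = 0 → ∃ μ : A, π μ = 0 ∧ ∃ b' ∈ B, b = μ • b'
  /-- `Q` is centred on the chart -/
  Q_int : ∀ b ∈ B, 0 ≤ Q.ord (ρ b)
  /-- normality of the special fibre at `Q`: the local ring of `Q` is the localisation of `ρ B` -/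
  Q_loc : ∀ f : Fk, 0 ≤ Q.ord f → ∃ a ∈ B, ∃ s ∈ B, ¬ InMax Q (ρ s) ∧ f * ρ s = ρ a
  /-- `Q` is a rational place -/
  Q_val : ∀ f : Fk, 0 ≤ Q.ord f → ∃ c : k, InMax Q (f - algebraMap k Fk c)
  P_inj : Function.Injective P
  /-- the `P i` are centred on the chart -/
  P_int : ∀ i, ∀ b ∈ B, 0 ≤ (P i).ord (ι b)
  /-- values of chart functions at `P i` are integral -/
  P_val : ∀ i, ∀ b ∈ B, ∃ c : A, InMax (P i) (ι b - algebraMap L F (c : L))
  /-- `P i` reduces to `Q` -/
  P_red : ∀ i, ∀ b ∈ B, ∀ c : A, InMax (P i) (ι b - algebraMap L F (c : L)) →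
    InMax Q (ρ b - algebraMap k Fk (π c))
  /-- normality of the generic fibre at `P i`: local uniformisers in the chart -/
  P_unif : ∀ i, ∃ w ∈ B, (P i).ord (ι w) = 1
  /-- the chart separates the `P i` -/
  P_sep : ∀ i j, i ≠ j → ∃ s ∈ B, ¬ InMax (P i) (ι s) ∧ InMax (P j) (ι s)

namespace LocalChart

variable {π : A →+* k} {ι : V →+* F} {ρ : V →+* Fk} {B : Subalgebra A V}
  {Q : Place k Fk} {I : Type*} {P : I → Place L F}

/-- The `A`-submodule (and `B`-ideal) of chart functions vanishing to order `≥ m i` at `P i`. -/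
def J (h : LocalChart π ι ρ B Q P) (m : I → ℕ) : Submodule A V where
  carrier := {z | z ∈ B ∧ ∀ i, OrdGE (P i) (m i) (ι z)}
  add_mem' := by
    rintro a b ⟨ha, ha'⟩ ⟨hb, hb'⟩
    refine ⟨B.add_mem ha hb, fun i => ?_⟩
    rw [map_add]
    exact (ha' i).add (hb' i)
  zero_mem' := ⟨B.zero_mem, fun i => by rw [map_zero]; exact ordGE_zero_right _⟩
  smul_mem' := by
    rintro c z ⟨hz, hz'⟩
    refine ⟨B.smul_mem hz c, fun i => ?_⟩
    rw [h.iota_smul]
    exact (hz' i).const_mul _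

theorem sub_algebraMap_mem {u : V} (hu : u ∈ B) (c : A) : u - algebraMap A V c ∈ B :=
  B.sub_mem hu (B.algebraMap_mem c)

variable (h : LocalChart π ι ρ B Q P) (m : I → ℕ)
include h

theorem mem_J {z : V} : z ∈ h.J m ↔ z ∈ B ∧ ∀ i, OrdGE (P i) (m i) (ι z) := Iff.rfl

theorem J_le : h.J m ≤ Subalgebra.toSubmodule B := fun _ hz => hz.1

theorem mul_mem_J {b z : V} (hb : b ∈ B) (hz : z ∈ h.J m) : b * z ∈ h.J m := by
  refine ⟨B.mul_mem hb hz.1, fun i => ?_⟩
  rw [map_mul]
  exact (hz.2 i).mul_left (ordGE_zero_iff.mpr (h.P_int i b hb))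

theorem mul_mem_J' {b z : V} (hb : b ∈ B) (hz : z ∈ h.J m) : z * b ∈ h.J m := by
  rw [mul_comm]; exact h.mul_mem_J m hb hz

theorem iota_sub_algebraMap (u : V) (c : A) :
    ι (u - algebraMap A V c) = ι u - algebraMap L F (c : L) := by
  rw [map_sub, h.iota_alg]

theorem rho_sub_algebraMap (u : V) (c : A) :
    ρ (u - algebraMap A V c) = ρ u - algebraMap k Fk (π c) := by
  rw [map_sub, h.rho_alg]

/-- For `u ∈ B` with values `c i` at `P i`, the product `∏ (u - c i) ^ m i` lies in `J`. -/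
theorem prod_mem_J [Fintype I] [DecidableEq I] {u : V} (hu : u ∈ B) (c : I → A)
    (hc : ∀ i, InMax (P i) (ι u - algebraMap L F (c i : L))) :
    ∏ i, (u - algebraMap A V (c i)) ^ m i ∈ h.J m := by
  refine ⟨B.prod_mem fun i _ => B.pow_mem (sub_algebraMap_mem hu (c i)) _, fun j => ?_⟩
  rw [← Finset.mul_prod_erase Finset.univ _ (Finset.mem_univ j), map_mul, map_pow,
    h.iota_sub_algebraMap]
  have h1 : OrdGE (P j) (m j) ((ι u - algebraMap L F (c j : L)) ^ m j) := by
    simpa using (InMax.ordGE (hc j)).pow (m j)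
  refine h1.mul_right ?_
  rw [map_prod]
  refine ordGE_prod_nonneg _ _ fun i _ => ?_
  rw [map_pow]
  have := (ordGE_zero_iff.mpr (h.P_int j _ (sub_algebraMap_mem hu (c i)))).pow (m i)
  simpa using this

omit h in
theorem ne_zero_and_ord_eq_zero_of_not_inMax {K' F' : Type*} [Field K'] [Field F'] [Algebra K' F']
    {v : Place K' F'} {g : F'} (hg : 0 ≤ v.ord g) (hn : ¬ InMax v g) : g ≠ 0 ∧ v.ord g = 0 := by
  have h0 : g ≠ 0 := fun h0 => hn (Or.inl h0)
  refine ⟨h0, ?_⟩
  by_contra hne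
  exact hn (Or.inr (lt_of_le_of_ne hg (Ne.symm hne)))

/-- Chart functions `e j` whose reductions have order exactly `j` at `Q`. -/
theorem exists_jet_basis :
    ∃ e : ℕ → V, ∀ j, e j ∈ B ∧ ρ (e j) ≠ 0 ∧ Q.ord (ρ (e j)) = j := by
  obtain ⟨ϖ, hϖ⟩ := exists_ord_eq_one Q
  have hϖ0 : ϖ ≠ 0 := ne_zero_of_ord_ne_zero Q (by rw [hϖ]; norm_num)
  have key : ∀ j : ℕ, ∃ a : V, a ∈ B ∧ ρ a ≠ 0 ∧ Q.ord (ρ a) = j := by
    intro j
    have hj : Q.ord (ϖ ^ j) = j := by rw [ord_pow, hϖ, mul_one]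
    obtain ⟨a, ha, s, hs, hsn, hfs⟩ := h.Q_loc (ϖ ^ j) (by rw [hj]; positivity)
    obtain ⟨hs0, hsord⟩ := ne_zero_and_ord_eq_zero_of_not_inMax (h.Q_int s hs) hsn
    refine ⟨a, ha, ?_, ?_⟩
    · rw [← hfs]
      exact mul_ne_zero (pow_ne_zero _ hϖ0) hs0
    · rw [← hfs, Q.ord_mul (pow_ne_zero _ hϖ0) hs0, hj, hsord, add_zero]
  choose e he using key
  exact ⟨e, he⟩

/-- Successive approximation at `Q` by the jet basis. -/
theorem exists_approx (e : ℕ → V) (he : ∀ j, e j ∈ B ∧ ρ (e j) ≠ 0 ∧ Q.ord (ρ (e j)) = j)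
    {z : V} (hz : z ∈ B) (n : ℕ) :
    ∃ c : ℕ → A, OrdGE Q n (ρ z - ∑ j ∈ Finset.range n, algebraMap k Fk (π (c j)) * ρ (e j)) := by
  induction n with
  | zero =>
    refine ⟨fun _ => 0, ?_⟩
    simpa using ordGE_zero_iff.mpr (h.Q_int z hz)
  | succ n ih =>
    obtain ⟨c, hc⟩ := ih
    set r := ρ z - ∑ j ∈ Finset.range n, algebraMap k Fk (π (c j)) * ρ (e j) with hr
    have hf : OrdGE Q 0 (r / ρ (e n)) := by
      have := hc.div (he n).2.1 (he n).2.2
      simpa using this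
    obtain ⟨γ, hγ⟩ := h.Q_val _ (ordGE_zero_iff.mp hf)
    obtain ⟨cn, rfl⟩ := h.pi_surj γ
    refine ⟨Function.update c n cn, ?_⟩
    rw [Finset.sum_range_succ]
    have e1 : ∑ j ∈ Finset.range n, algebraMap k Fk (π (Function.update c n cn j)) * ρ (e j)
        = ∑ j ∈ Finset.range n, algebraMap k Fk (π (c j)) * ρ (e j) := by
      refine Finset.sum_congr rfl fun j hj => ?_
      rw [Function.update_of_ne (Finset.mem_range.mp hj).ne]
    rw [e1, Function.update_self]
    have e2 : ρ z - (∑ j ∈ Finset.range n, algebraMap k Fk (π (c j)) * ρ (e j)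
        + algebraMap k Fk (π cn) * ρ (e n))
        = ρ (e n) * (r / ρ (e n) - algebraMap k Fk (π cn)) := by
      rw [hr]
      field_simp [(he n).2.1]
      ring
    rw [e2]
    have h1 : OrdGE Q n (ρ (e n)) := ordGE_of_ord (by rw [(he n).2.2])
    have := h1.mul (InMax.ordGE hγ)
    simpa using this

omit h in
theorem aeval_mem_of_mem {s : V} (hs : s ∈ B) (p : A[X]) : aeval s p ∈ B := by
  have := (aeval (⟨s, hs⟩ : B) p).2
  rwa [← Subalgebra.aeval_coe] at this

/-- Key step on the special fibre: every chart function is, modulo `J + 𝔪 B`, an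
`A`-combination of the first `b = ord_Q (ρ y)` jet functions. -/
theorem exists_decomp [Fintype I] (e : ℕ → V)
    (he : ∀ j, e j ∈ B ∧ ρ (e j) ≠ 0 ∧ Q.ord (ρ (e j)) = j)
    {y : V} (hy : y ∈ B) (hy0 : ρ y ≠ 0) (hm : ∀ i, (m i : ℤ) = (P i).ord (ι y))
    (b : ℕ) (hb : (b : ℤ) = Q.ord (ρ y)) {z : V} (hz : z ∈ B) :
    ∃ c : ℕ → A, ∃ u ∈ h.J m, ∃ μ : A, π μ = 0 ∧ ∃ b' ∈ B,
      z = ∑ j ∈ Finset.range b, c j • e j + u + μ • b' := by
  classical
  have hyJ : y ∈ h.J m := ⟨hy, fun i => Or.inr (by rw [hm])⟩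
  obtain ⟨c, hc⟩ := h.exists_approx e he hz b
  set z' := z - ∑ j ∈ Finset.range b, c j • e j with hz'
  have hz'B : z' ∈ B :=
    B.sub_mem hz (B.sum_mem fun j _ => B.smul_mem (he j).1 _)
  have hρz' : ρ z' = ρ z - ∑ j ∈ Finset.range b, algebraMap k Fk (π (c j)) * ρ (e j) := by
    rw [hz', map_sub, map_sum]
    congr 1
    exact Finset.sum_congr rfl fun j _ => h.rho_smul _ _
  rw [← hρz'] at hc
  have hf : OrdGE Q 0 (ρ z' / ρ y) := by
    have := hc.div hy0 hb.symm
    simpa using this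
  obtain ⟨a', ha', s, hs, hsn, hfs⟩ := h.Q_loc _ (ordGE_zero_iff.mp hf)
  have hprod : ρ (z' * s - y * a') = 0 := by
    rw [map_sub, map_mul, map_mul, ← hfs]
    field_simp
    ring
  obtain ⟨μ, hμ, b'', hb'', hker⟩ := h.ker _ (B.sub_mem (B.mul_mem hz'B hs) (B.mul_mem hy ha')) hprod
  -- values of `s` at the `P i`
  choose cs hcs using fun i => h.P_val i s hs
  have hunit : ∀ i, IsUnit (cs i) := by
    intro i
    refine h.isUnit_of_pi_ne_zero fun h0 => hsn ?_
    have := h.P_red i s hs (cs i) (hcs i)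
    rwa [h0, map_zero, sub_zero] at this
  set G : A[X] := ∏ i, (X - C (cs i)) ^ m i with hG
  have hGs : aeval s G = ∏ i, (s - algebraMap A V (cs i)) ^ m i := by
    rw [hG, map_prod]
    refine Finset.prod_congr rfl fun i _ => ?_
    rw [map_pow, map_sub, aeval_X, aeval_C]
  have hgJ : aeval s G ∈ h.J m := by
    rw [hGs]
    exact h.prod_mem_J m hs cs hcs
  have hu0 : IsUnit (G.coeff 0) := by
    rw [coeff_zero_eq_eval_zero, hG, eval_prod]
    refine IsUnit.prod_univ_iff.mpr fun i => ?_  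
    rw [eval_pow, eval_sub, eval_X, eval_C, zero_sub]
    exact (hunit i).neg.pow _
  obtain ⟨v0, hv0⟩ := hu0.exists_left_inv
  set q := aeval s G.divX with hq
  have hqB : q ∈ B := aeval_mem_of_mem hs _
  have hsplit : q * s + algebraMap A V (G.coeff 0) = aeval s G := by
    have := congrArg (aeval s) (divX_mul_X_add G)
    rwa [map_add, map_mul, aeval_X, aeval_C] at this
  -- `u₀ • z' ∈ J + 𝔪 B`
  have hkey : G.coeff 0 • z' = (z' * aeval s G - q * (y * a')) + (-μ) • (q * b'') := by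
    have h1 : z' * s = y * a' + algebraMap A V μ * b'' := by
      rw [← Algebra.smul_def, ← hker]; ring
    rw [Algebra.smul_def, Algebra.smul_def, map_neg]
    linear_combination z' * hsplit - q * h1
  have hu1 : z' * aeval s G - q * (y * a') ∈ h.J m := by
    refine (h.J m).sub_mem (h.mul_mem_J m hz'B hgJ) (h.mul_mem_J m hqB ?_)
    exact h.mul_mem_J' m ha' hyJ
  refine ⟨c, v0 • (z' * aeval s G - q * (y * a')), (h.J m).smul_mem _ hu1, v0 * (-μ), ?_,
    q * b'', B.mul_mem hqB hb'', ?_⟩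
  · rw [map_mul, map_neg, hμ, neg_zero, mul_zero]
  · have h3 : z' = v0 • (G.coeff 0 • z') := by
      rw [smul_smul, hv0, one_smul]
    have h4 : z = ∑ j ∈ Finset.range b, c j • e j + z' := by rw [hz']; ring
    have h5 : z' = v0 • (z' * aeval s G - q * (y * a')) + (v0 * -μ) • (q * b'') := by
      conv_lhs => rw [h3, hkey]
      rw [smul_add, smul_smul]
    rw [add_assoc, ← h5]
    exact h4

/-- Nakayama: the chart is spanned, modulo `J`, by the first `b = ord_Q (ρ y)` jet functions. -/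
theorem exists_span [Fintype I] (e : ℕ → V)
    (he : ∀ j, e j ∈ B ∧ ρ (e j) ≠ 0 ∧ Q.ord (ρ (e j)) = j)
    {y : V} (hy : y ∈ B) (hy0 : ρ y ≠ 0) (hm : ∀ i, (m i : ℤ) = (P i).ord (ι y))
    (b : ℕ) (hb : (b : ℤ) = Q.ord (ρ y))
    {x : V} (hx : x ∈ B)
    (hfin : ∀ g : A[X], g.Monic → ∃ (r : ℕ) (e' : Fin r → V), (∀ j, e' j ∈ B) ∧
      ∀ z ∈ B, ∃ α : Fin r → A, ∃ z' ∈ B, z = ∑ j, α j • e' j + aeval x g * z')
    {z : V} (hz : z ∈ B) :
    ∃ α : Fin b → A, z - ∑ j, α j • e j ∈ h.J m := by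
  classical
  choose cx hcx using fun i => h.P_val i x hx
  set g : A[X] := ∏ i, (X - C (cx i)) ^ m i with hg
  have hmonic : g.Monic :=
    monic_prod_of_monic _ _ fun i _ => (monic_X_sub_C (cx i)).pow _
  have hgx : aeval x g = ∏ i, (x - algebraMap A V (cx i)) ^ m i := by
    rw [hg, map_prod]
    refine Finset.prod_congr rfl fun i _ => ?_
    rw [map_pow, map_sub, aeval_X, aeval_C]
  have hgJ : aeval x g ∈ h.J m := by
    rw [hgx]
    exact h.prod_mem_J m hx cx hcx
  obtain ⟨r, e', he', hgen⟩ := hfin g hmonic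
  set mk := (h.J m).mkQ with hmk
  set T : Submodule A (V ⧸ h.J m) := (Subalgebra.toSubmodule B).map mk with hT
  set N : Submodule A (V ⧸ h.J m) := Submodule.span A (Set.range fun j : Fin b => mk (e j))
    with hN
  have hmkJ : ∀ u ∈ h.J m, mk u = 0 := fun u hu => by
    rw [hmk, Submodule.mkQ_apply, Submodule.Quotient.mk_eq_zero]
    exact hu
  have hTeq : T = Submodule.span A (Set.range fun j : Fin r => mk (e' j)) := by
    apply le_antisymm
    · rintro _ ⟨w, hw, rfl⟩
      obtain ⟨α, w', hw', rfl⟩ := hgen w hw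
      rw [map_add, map_sum, hmkJ _ (h.mul_mem_J' m hw' hgJ), add_zero]
      refine Submodule.sum_mem _ fun j _ => ?_
      rw [map_smul]
      exact Submodule.smul_mem _ _ (Submodule.subset_span ⟨j, rfl⟩)
    · rw [Submodule.span_le]
      rintro _ ⟨j, rfl⟩
      exact ⟨e' j, he' j, rfl⟩
  have hTfg : T.FG := by
    rw [hTeq]
    exact Submodule.fg_span (Set.finite_range _)
  have hle : T ≤ N ⊔ IsLocalRing.maximalIdeal A • T := by
    rintro _ ⟨w, hw, rfl⟩
    obtain ⟨c, u, hu, μ, hμ, w', hw', rfl⟩ := h.exists_decomp m e he hy hy0 hm b hb hw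
    rw [map_add, map_add, hmkJ u hu, add_zero, map_sum, map_smul]
    refine Submodule.add_mem_sup ?_ ?_
    · rw [Finset.sum_range]
      refine Submodule.sum_mem _ fun j _ => ?_
      rw [map_smul]
      exact Submodule.smul_mem _ _ (Submodule.subset_span ⟨j, rfl⟩)
    · exact Submodule.smul_mem_smul ((h.pi_eq_zero_iff μ).mp hμ) ⟨w', hw', rfl⟩
  have hTN : T ≤ N :=
    Submodule.le_of_le_smul_of_le_jacobson_bot hTfg (IsLocalRing.maximalIdeal_le_jacobson _) hle
  have hzN : mk z ∈ N := hTN ⟨z, hz, rfl⟩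
  rw [hN, Submodule.mem_span_range_iff_exists_fun] at hzN
  obtain ⟨α, hα⟩ := hzN
  refine ⟨α, ?_⟩
  rw [← Submodule.Quotient.mk_eq_zero, ← Submodule.mkQ_apply, ← hmk, map_sub, map_sum, ← hα,
    sub_eq_zero]
  exact Finset.sum_congr rfl fun j _ => (map_smul _ _ _).symm

omit h in
theorem prod_ne_zero_ord_zero {K' F' : Type*} [Field K'] [Field F'] [Algebra K' F']
    (v : Place K' F') {ι' : Type*} (s : Finset ι') (f : ι' → F')
    (hf : ∀ i ∈ s, f i ≠ 0 ∧ v.ord (f i) = 0) :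
    (∏ i ∈ s, f i) ≠ 0 ∧ v.ord (∏ i ∈ s, f i) = 0 := by
  classical
  induction s using Finset.induction_on with
  | empty => simp
  | insert a s ha ih =>
    rw [Finset.prod_insert ha]
    obtain ⟨h1, h2⟩ := hf a (Finset.mem_insert_self a s)
    obtain ⟨h3, h4⟩ := ih fun i hi => hf i (Finset.mem_insert_of_mem hi)
    exact ⟨mul_ne_zero h1 h3, by rw [v.ord_mul h1 h3, h2, h4, add_zero]⟩

/-- Independent chart functions: `w ⟨i, e⟩` has order exactly `e` at `P i` and order `≥ m j` at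
`P j`, `j ≠ i`. -/
theorem exists_indep [Fintype I] :
    ∃ w : (Σ i, Fin (m i)) → V, (∀ p, w p ∈ B) ∧
      (∀ p, ι (w p) ≠ 0 ∧ (P p.1).ord (ι (w p)) = (p.2 : ℕ)) ∧
      ∀ p j, j ≠ p.1 → OrdGE (P j) (m j) (ι (w p)) := by
  classical
  choose wu hwuB hwu1 using h.P_unif
  have sep : ∀ i j, ∃ s ∈ B, i ≠ j → (¬ InMax (P i) (ι s) ∧ InMax (P j) (ι s)) := by
    intro i j
    by_cases hij : i = j
    · exact ⟨1, B.one_mem, fun h' => absurd hij h'⟩
    · obtain ⟨s, hs, h1⟩ := h.P_sep i j hij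
      exact ⟨s, hs, fun _ => h1⟩
  choose ss hssB hss using sep
  set uu : I → V := fun i => ∏ j ∈ Finset.univ.erase i, (ss i j) ^ m j with huu
  have huuB : ∀ i, uu i ∈ B := fun i => B.prod_mem fun j _ => B.pow_mem (hssB i j) _
  have huu0 : ∀ i, ι (uu i) ≠ 0 ∧ (P i).ord (ι (uu i)) = 0 := by
    intro i
    rw [huu, map_prod]
    refine prod_ne_zero_ord_zero (P i) _ _ fun j hj => ?_
    have hji : i ≠ j := fun e => (Finset.ne_of_mem_erase hj) e.symm
    obtain ⟨h1, h2⟩ := ne_zero_and_ord_eq_zero_of_not_inMax (h.P_int i _ (hssB i j)) (hss i j hji).1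
    rw [map_pow]
    exact ⟨pow_ne_zero _ h1, by rw [ord_pow, h2, mul_zero]⟩
  have hwu0 : ∀ i, ι (wu i) ≠ 0 := fun i =>
    ne_zero_of_ord_ne_zero (P i) (by rw [hwu1]; norm_num)
  refine ⟨fun p => uu p.1 * (wu p.1) ^ (p.2 : ℕ), fun p => B.mul_mem (huuB _) (B.pow_mem (hwuB _) _),
    fun p => ?_, fun p j hj => ?_⟩
  · rw [map_mul, map_pow]
    refine ⟨mul_ne_zero (huu0 _).1 (pow_ne_zero _ (hwu0 _)), ?_⟩
    rw [(P p.1).ord_mul (huu0 _).1 (pow_ne_zero _ (hwu0 _)), (huu0 _).2, ord_pow, hwu1]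
    ring
  · rw [map_mul, map_pow]
    have hjmem : j ∈ Finset.univ.erase p.1 := Finset.mem_erase.mpr ⟨hj, Finset.mem_univ _⟩
    have h1 : OrdGE (P j) (m j) (ι (uu p.1)) := by
      have e1 : uu p.1 = (ss p.1 j) ^ m j *
          ∏ i ∈ (Finset.univ.erase p.1).erase j, (ss p.1 i) ^ m i :=
        (Finset.mul_prod_erase _ _ hjmem).symm
      rw [e1, map_mul, map_pow]
      have h2 : OrdGE (P j) (m j) (ι (ss p.1 j) ^ m j) := by
        simpa using (InMax.ordGE (hss p.1 j (Ne.symm hj)).2).pow (m j)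
      refine h2.mul_right ?_
      rw [map_prod]
      refine ordGE_prod_nonneg _ _ fun i _ => ?_
      rw [map_pow]
      simpa using (ordGE_zero_iff.mpr (h.P_int j _ (hssB p.1 i))).pow (m i)
    refine h1.mul_right ?_
    simpa using (ordGE_zero_iff.mpr (h.P_int j _ (hwuB p.1))).pow (p.2 : ℕ)

/-- **Zeros can only merge under reduction.**  For a chart function `y` with nonzero reduction,
the total order of vanishing of `y` at finitely many distinct places `P i` reducing to `Q` is at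
most the order of vanishing of the reduction of `y` at `Q`. -/
theorem sum_ord_le [Fintype I] {y : V} (hy : y ∈ B) (hy0 : ρ y ≠ 0) {x : V} (hx : x ∈ B)
    (hfin : ∀ g : A[X], g.Monic → ∃ (r : ℕ) (e' : Fin r → V), (∀ j, e' j ∈ B) ∧
      ∀ z ∈ B, ∃ α : Fin r → A, ∃ z' ∈ B, z = ∑ j, α j • e' j + aeval x g * z') :
    ∑ i, (P i).ord (ι y) ≤ Q.ord (ρ y) := by
  classical
  have hPy : ∀ i, 0 ≤ (P i).ord (ι y) := fun i => h.P_int i y hy
  have hQy : 0 ≤ Q.ord (ρ y) := h.Q_int y hy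
  set m : I → ℕ := fun i => ((P i).ord (ι y)).toNat with hmdef
  have hm : ∀ i, (m i : ℤ) = (P i).ord (ι y) := fun i => Int.toNat_of_nonneg (hPy i)
  set b : ℕ := (Q.ord (ρ y)).toNat with hbdef
  have hb : (b : ℤ) = Q.ord (ρ y) := Int.toNat_of_nonneg hQy
  obtain ⟨e, he⟩ := h.exists_jet_basis
  obtain ⟨w, hwB, hw1, hw2⟩ := h.exists_indep m
  choose α hα using fun p => h.exists_span m e he hy hy0 hm b hb hx hfin (hwB p)
  by_contra hlt
  rw [not_le] at hlt
  have hcard : b < Fintype.card (Σ i, Fin (m i)) := by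
    rw [Fintype.card_sigma]
    simp only [Fintype.card_fin]
    have : ((b : ℕ) : ℤ) < ((∑ i, m i : ℕ) : ℤ) := by
      rw [hb]
      push_cast
      simp only [hm]
      exact hlt
    exact_mod_cast this
  -- linear dependence of the coefficient vectors
  have hdep : ¬ LinearIndependent L
      (fun p : (Σ i, Fin (m i)) => fun j : Fin b => ((α p j : A) : L)) := by
    intro hli
    have := hli.fintype_card_le_finrank
    rw [Module.finrank_fintype_fun_eq_card, Fintype.card_fin] at this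
    omega
  rw [Fintype.not_linearIndependent_iff] at hdep
  obtain ⟨g, hg0, p₁, hp₁⟩ := hdep
  obtain ⟨d, hd⟩ := IsLocalization.exist_integer_multiples (nonZeroDivisors A) Finset.univ g
  have hd' : ∀ p, ∃ c : A, (c : L) = ((d : A) : L) * g p := by
    intro p
    obtain ⟨c, hc⟩ := hd p (Finset.mem_univ p)
    refine ⟨c, ?_⟩
    rw [Submonoid.smul_def, Algebra.smul_def] at hc
    exact hc
  choose cc hcc using hd'
  have hd0 : ((d : A) : L) ≠ 0 := by
    have := nonZeroDivisors.coe_ne_zero d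
    simp only [ne_eq, ZeroMemClass.coe_eq_zero]
    exact this
  have hrel : ∀ j, ∑ p, cc p * α p j = 0 := by
    intro j
    apply Subtype.coe_injective
    have h1 := congrFun hg0 j
    simp only [Finset.sum_apply, Pi.smul_apply, smul_eq_mul, Pi.zero_apply] at h1
    push_cast
    simp only [hcc, mul_assoc]
    rw [← Finset.mul_sum, h1, mul_zero]
  -- the resulting element of `J`
  have hWJ : ∑ p, cc p • w p ∈ h.J m := by
    have e1 : ∑ p, cc p • w p = ∑ p, cc p • (w p - ∑ j, α p j • e j) := by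
      rw [← sub_eq_zero, ← Finset.sum_sub_distrib]
      simp only [← smul_sub, sub_sub_cancel, Finset.smul_sum, smul_smul]
      rw [Finset.sum_comm]
      refine Finset.sum_eq_zero fun j _ => ?_
      rw [← Finset.sum_smul, hrel, zero_smul]
    rw [e1]
    exact Submodule.sum_mem _ fun p _ => Submodule.smul_mem _ _ (hα p)
  -- contradiction with independence
  obtain ⟨i₀, e₁⟩ := p₁
  have hcc1 : cc ⟨i₀, e₁⟩ ≠ 0 := by
    intro h0
    have := hcc ⟨i₀, e₁⟩
    rw [h0] at this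
    simp only [ZeroMemClass.coe_zero] at this
    exact (mul_ne_zero hd0 hp₁) this.symm
  set S : Finset (Fin (m i₀)) := Finset.univ.filter fun e' => cc ⟨i₀, e'⟩ ≠ 0 with hS
  have hSne : S.Nonempty := ⟨e₁, by simp [hS, hcc1]⟩
  set e₀ := S.min' hSne with he₀
  have he₀S : e₀ ∈ S := Finset.min'_mem S hSne
  have hcc0 : cc ⟨i₀, e₀⟩ ≠ 0 := by
    have := he₀S
    simp only [hS, Finset.mem_filter, Finset.mem_univ, true_and] at this
    exact this
  have hmin : ∀ e' : Fin (m i₀), e' < e₀ → cc ⟨i₀, e'⟩ = 0 := by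
    intro e' hlt'
    by_contra hne
    have : e' ∈ S := by simp [hS, hne]
    exact absurd (Finset.min'_le S e' this) (not_le.mpr hlt')
  have hιW : ι (∑ p, cc p • w p) = ∑ p, algebraMap L F (cc p : L) * ι (w p) := by
    rw [map_sum]
    exact Finset.sum_congr rfl fun p _ => h.iota_smul _ _
  set T₀ := algebraMap L F (cc ⟨i₀, e₀⟩ : L) * ι (w ⟨i₀, e₀⟩) with hT₀
  have hccL : algebraMap L F (cc ⟨i₀, e₀⟩ : L) ≠ 0 := by
    rw [Ne, map_eq_zero]
    simpa using hcc0
  have hT₀ne : T₀ ≠ 0 := mul_ne_zero hccL (hw1 ⟨i₀, e₀⟩).1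
  have hT₀ord : (P i₀).ord T₀ = (e₀ : ℕ) := by
    rw [hT₀, (P i₀).ord_mul hccL (hw1 ⟨i₀, e₀⟩).1, ord_algebraMap, zero_add]
    exact (hw1 ⟨i₀, e₀⟩).2
  have hsplit : ∑ p, algebraMap L F (cc p : L) * ι (w p) =
      T₀ + ∑ p ∈ Finset.univ.erase (⟨i₀, e₀⟩ : Σ i, Fin (m i)),
        algebraMap L F (cc p : L) * ι (w p) :=
    (Finset.add_sum_erase _ _ (Finset.mem_univ _)).symm
  have hR : OrdGE (P i₀) ((P i₀).ord T₀ + 1)
      (∑ p ∈ Finset.univ.erase (⟨i₀, e₀⟩ : Σ i, Fin (m i)),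
        algebraMap L F (cc p : L) * ι (w p)) := by
    rw [hT₀ord]
    refine ordGE_sum _ _ fun p hp => ?_
    have hpne : p ≠ ⟨i₀, e₀⟩ := Finset.ne_of_mem_erase hp
    obtain ⟨i, e'⟩ := p
    by_cases hi : i = i₀
    · subst hi
      have hne' : e' ≠ e₀ := fun h' => hpne (by rw [h'])
      rcases lt_or_gt_of_ne hne' with hlt' | hgt'
      · rw [hmin e' hlt']
        simp only [ZeroMemClass.coe_zero, map_zero, zero_mul]
        exact ordGE_zero_right _
      · refine OrdGE.const_mul ?_ _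
        refine ordGE_of_ord ?_
        rw [(hw1 ⟨i, e'⟩).2]
        have : (e₀ : ℕ) < (e' : ℕ) := hgt'
        exact_mod_cast this
    · refine OrdGE.const_mul ?_ _
      refine (hw2 ⟨i, e'⟩ i₀ (Ne.symm hi)).mono ?_
      have : (e₀ : ℕ) < m i₀ := e₀.2
      exact_mod_cast this
  obtain ⟨hne, hord⟩ := ord_add_of_ordGE hT₀ne hR
  have hJi := hWJ.2 i₀
  rw [hιW, hsplit] at hJi
  have := hJi.le_ord hne
  rw [hord, hT₀ord] at this
  have h2 : (e₀ : ℕ) < m i₀ := e₀.2
  have : (m i₀ : ℤ) ≤ ((e₀ : ℕ) : ℤ) := this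
  omega

end LocalChart

end Fermat.Agent.S37.H518
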