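import Fermat.Agent.S37.H518.Charts
import Fermat.Agent.Lib.FF460.OrdVal

/-!
# S37 / RIM (helper518): charts from Dedekind models of the two fibres

The fields `Q_loc`, `P_unif`, `P_sep`, `exists_red` of `Chart` (see `Charts.lean`) are derived
from the statement that the two fibres of the chart `B` are Dedekind domains:

* `GenericModel ι B R` : `ι B ⊆ R` and every `r ∈ R` is `ι b / μ` with `b ∈ B`, `μ ∈ A ∖ 0`
  (think: `R` = integral closure of `L[x]` in `F`);
* `SpecialModel ρ B Rk` : `ρ B = Rk`  (think: `Rk` = integral closure of `k[x̄]` in `F_k`;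
  the inclusion `⊇` is the NORMALITY of the special fibre).

Main results:
* `chart_of_models` : `RedStr` + `GenericModel` + `SpecialModel` + `ker` + `fin` + `x̄` nonconstant
  ⟹ `Chart π ι ρ B x`;
* `SpecialModel.exists_red` : the reduction of a point exists (the ideal `redIdeal` of reductions
  of chart functions vanishing at `P` is a nonzero maximal ideal of `Rk`);
* `fin_of_span` : if `B = ∑ A[x] e_j` (finitely many `e_j`) then `fin` holds.
-/

set_option autoImplicit false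

namespace Fermat.Agent.S37.H518

open AlgebraicCurve Fermat.Agent.S24.H504 Polynomial IsDedekindDomain

section DedekindPlace

variable {K F : Type*} [Field K] [Field F] [Algebra K F]
variable {R : Type*} [CommRing R] [IsDedekindDomain R] [Algebra R F] [IsFractionRing R F]
  [Algebra K R] [IsScalarTower K R F]

/-- Elements of the Dedekind model are regular at the place of a height-one prime. -/
theorem ord_nonneg_ofHeightOneSpectrum (𝔭 : HeightOneSpectrum R) (r : R) :
    0 ≤ (Place.ofHeightOneSpectrum (K := K) 𝔭).ord (algebraMap R F r) := by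
  rw [← mem_iff_ord_nonneg', Fermat.Agent.Lib.FF460.mem_ofHeightOneSpectrum_iff]
  exact 𝔭.valuation_le_one r

/-- An element of the Dedekind model lies in the maximal ideal of the place of `𝔭` iff it
lies in `𝔭`. -/
theorem inMax_ofHeightOneSpectrum_iff (𝔭 : HeightOneSpectrum R) (r : R) :
    InMax (Place.ofHeightOneSpectrum (K := K) 𝔭) (algebraMap R F r) ↔ r ∈ 𝔭.asIdeal := by
  rw [← HeightOneSpectrum.valuation_lt_one_iff_mem (K := F)]
  unfold InMax
  rw [Fermat.Agent.Lib.FF460.ord_ofHeightOneSpectrum]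
  rcases eq_or_ne r 0 with rfl | hr
  · simp
  have hr' : algebraMap R F r ≠ 0 := by
    intro h0
    exact hr ((IsFractionRing.injective R F) (by simpa using h0))
  have hne : 𝔭.valuation F (algebraMap R F r) ≠ 0 := (Valuation.ne_zero_iff _).mpr hr'
  constructor
  · rintro (h | h)
    · exact absurd h hr'
    · rw [Left.neg_pos_iff] at h
      rw [← WithZero.log_lt_log hne one_ne_zero, WithZero.log_one]
      exact h
  · intro h
    right
    rw [Left.neg_pos_iff]
    rw [← WithZero.log_lt_log hne one_ne_zero, WithZero.log_one] at h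
    exact h

/-- A uniformiser at the place of `𝔭` can be found in the Dedekind model. -/
theorem exists_ord_eq_one_ofHeightOneSpectrum (𝔭 : HeightOneSpectrum R) :
    ∃ r : R, (Place.ofHeightOneSpectrum (K := K) 𝔭).ord (algebraMap R F r) = 1 := by
  obtain ⟨r, hr⟩ := 𝔭.intValuation_exists_uniformizer
  refine ⟨r, ?_⟩
  rw [Fermat.Agent.Lib.FF460.ord_ofHeightOneSpectrum, HeightOneSpectrum.valuation_of_algebraMap, hr]
  simp

/-- Functions regular at the place of `𝔭` are fractions with denominator outside `𝔭`. -/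
theorem exists_frac_ofHeightOneSpectrum (𝔭 : HeightOneSpectrum R) {f : F}
    (hf : 0 ≤ (Place.ofHeightOneSpectrum (K := K) 𝔭).ord f) :
    ∃ n d : R, d ∉ 𝔭.asIdeal ∧ f * algebraMap R F d = algebraMap R F n := by
  rw [← mem_iff_ord_nonneg', Fermat.Agent.Lib.FF460.mem_ofHeightOneSpectrum_iff] at hf
  obtain ⟨n, d, hnd⟩ := HeightOneSpectrum.exists_primeCompl_mul_eq_of_integer 𝔭 f hf
  exact ⟨n, d, d.2, hnd⟩

end DedekindPlace

section ChartOf

variable {L : Type*} [Field L] {A : ValuationSubring L} {k : Type*} [Field k]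
variable {F : Type*} [Field F] [Algebra L F] {Fk : Type*} [Field Fk] [Algebra k Fk]
variable {V : Type*} [CommRing V] [Algebra A V]
variable {π : A →+* k} {ι : V →+* F} {ρ : V →+* Fk}

/-- The generic fibre of the chart `B` is the Dedekind domain `R`:
`ι B ⊆ R` and `R ⊆ L · ι B`. -/
structure GenericModel (ι : V →+* F) (B : Subalgebra A V) (R : Type*) [CommRing R]
    [Algebra R F] : Prop where
  mem : ∀ b ∈ B, ∃ r : R, algebraMap R F r = ι b
  scale : ∀ r : R, ∃ b ∈ B, ∃ μ : A, μ ≠ 0 ∧ ι b = algebraMap L F (μ : L) * algebraMap R F r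

/-- The special fibre of the chart `B` is the Dedekind domain `Rk`: `ρ B = Rk`. -/
structure SpecialModel (ρ : V →+* Fk) (B : Subalgebra A V) (Rk : Type*) [CommRing Rk]
    [Algebra Rk Fk] : Prop where
  mem : ∀ b ∈ B, ∃ c : Rk, algebraMap Rk Fk c = ρ b
  lift : ∀ c : Rk, ∃ b ∈ B, ρ b = algebraMap Rk Fk c

section Generic

variable {B : Subalgebra A V}
variable {R : Type*} [CommRing R] [IsDedekindDomain R] [Algebra R F] [IsFractionRing R F]
  [Algebra L R] [IsScalarTower L R F]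

theorem GenericModel.exists_prime (hG : GenericModel ι B R) {P : Place L F} (hP : PC ι B P) :
    ∃ 𝔭 : HeightOneSpectrum R, Place.ofHeightOneSpectrum (K := L) 𝔭 = P := by
  refine Fermat.Agent.Lib.FF460.exists_heightOneSpectrum_of_le P fun r => ?_
  obtain ⟨b, hb, μ, hμ, hbr⟩ := hG.scale r
  have hμ' : (μ : L) ≠ 0 := fun h => hμ (Subtype.ext h)
  have h1 : algebraMap R F r = algebraMap L F ((μ : L)⁻¹) * ι b := by
    rw [hbr, ← mul_assoc, ← map_mul, inv_mul_cancel₀ hμ', map_one, one_mul]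
  rw [h1, mem_iff_ord_nonneg']
  exact ord_mul_nonneg P (ordGE_zero_iff.mp (ordGE_algebraMap _)) (hP.ord_nonneg hb)

theorem GenericModel.P_unif (hG : GenericModel ι B R) (P : Place L F) (hP : PC ι B P) :
    ∃ w ∈ B, P.ord (ι w) = 1 := by
  obtain ⟨𝔭, rfl⟩ := hG.exists_prime hP
  obtain ⟨r, hr⟩ := exists_ord_eq_one_ofHeightOneSpectrum (K := L) (F := F) 𝔭
  obtain ⟨b, hb, μ, hμ, hbr⟩ := hG.scale r
  have hμ' : (μ : L) ≠ 0 := fun h => hμ (Subtype.ext h)
  refine ⟨b, hb, ?_⟩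
  have hr0 : algebraMap R F r ≠ 0 := by
    intro h0
    rw [h0] at hr
    simp at hr
  have hμF : algebraMap L F (μ : L) ≠ 0 := by
    rw [Ne, map_eq_zero]
    exact hμ'
  rw [hbr, Place.ord_mul _ hμF hr0, ord_algebraMap, hr, zero_add]

theorem GenericModel.P_sep (hG : GenericModel ι B R) (P P' : Place L F) (hP : PC ι B P)
    (hP' : PC ι B P') (hne : P ≠ P') : ∃ s ∈ B, ¬ InMax P (ι s) ∧ InMax P' (ι s) := by
  obtain ⟨𝔭, rfl⟩ := hG.exists_prime hP
  obtain ⟨𝔭', rfl⟩ := hG.exists_prime hP'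
  have hne' : 𝔭 ≠ 𝔭' := fun h => hne (by rw [h])
  have hnle : ¬ 𝔭'.asIdeal ≤ 𝔭.asIdeal := by
    intro hle
    apply hne'
    have := 𝔭'.isMaximal.eq_of_le 𝔭.isPrime.ne_top hle
    exact (HeightOneSpectrum.ext this).symm
  obtain ⟨r, hr', hr⟩ := SetLike.not_le_iff_exists.mp hnle
  obtain ⟨b, hb, μ, hμ, hbr⟩ := hG.scale r
  have hμ' : (μ : L) ≠ 0 := fun h => hμ (Subtype.ext h)
  refine ⟨b, hb, ?_, ?_⟩
  · intro hin
    apply hr
    rw [← inMax_ofHeightOneSpectrum_iff (K := L) (F := F)]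
    have h1 : algebraMap R F r = algebraMap L F ((μ : L)⁻¹) * ι b := by
      rw [hbr, ← mul_assoc, ← map_mul, inv_mul_cancel₀ hμ', map_one, one_mul]
    rw [h1]
    exact hin.mul_left (ordGE_zero_iff.mp (ordGE_algebraMap _))
  · rw [hbr]
    exact ((inMax_ofHeightOneSpectrum_iff (K := L) (F := F) 𝔭' r).mpr hr').mul_left
      (ordGE_zero_iff.mp (ordGE_algebraMap _))

end Generic
section Special

variable {B : Subalgebra A V}
variable {Rk : Type*} [CommRing Rk] [IsDedekindDomain Rk] [Algebra Rk Fk] [IsFractionRing Rk Fk]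
  [Algebra k Rk] [IsScalarTower k Rk Fk]

theorem SpecialModel.exists_prime (hS : SpecialModel ρ B Rk) {Q : Place k Fk} (hQ : QC ρ B Q) :
    ∃ 𝔮 : HeightOneSpectrum Rk, Place.ofHeightOneSpectrum (K := k) 𝔮 = Q := by
  refine Fermat.Agent.Lib.FF460.exists_heightOneSpectrum_of_le Q fun c => ?_
  obtain ⟨b, hb, hbc⟩ := hS.lift c
  rw [← hbc, mem_iff_ord_nonneg']
  exact hQ b hb

theorem SpecialModel.Q_loc (hS : SpecialModel ρ B Rk) (Q : Place k Fk) (hQ : QC ρ B Q)
    (f : Fk) (hf : 0 ≤ Q.ord f) :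
    ∃ a ∈ B, ∃ s ∈ B, ¬ InMax Q (ρ s) ∧ f * ρ s = ρ a := by
  obtain ⟨𝔮, rfl⟩ := hS.exists_prime hQ
  obtain ⟨n, d, hd, hnd⟩ := exists_frac_ofHeightOneSpectrum (K := k) 𝔮 hf
  obtain ⟨a, ha, han⟩ := hS.lift n
  obtain ⟨s, hs, hsd⟩ := hS.lift d
  refine ⟨a, ha, s, hs, ?_, ?_⟩
  · rw [hsd, inMax_ofHeightOneSpectrum_iff]
    exact hd
  · rw [hsd, han, hnd]

end Special

section RedIdeal

variable {B : Subalgebra A V}
variable {Rk : Type*} [CommRing Rk] [Algebra Rk Fk]

/-- The ideal of `Rk` of reductions of chart functions vanishing at `P`. -/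
def redIdeal (hS : SpecialModel ρ B Rk) (P : Place L F) (hP : PC ι B P) : Ideal Rk where
  carrier := {c | ∃ b ∈ B, InMax P (ι b) ∧ ρ b = algebraMap Rk Fk c}
  zero_mem' := ⟨0, B.zero_mem, by rw [map_zero]; exact inMax_zero, by rw [map_zero, map_zero]⟩
  add_mem' := by
    rintro c c' ⟨b, hb, hbP, hbc⟩ ⟨b', hb', hbP', hbc'⟩
    exact ⟨b + b', B.add_mem hb hb', by rw [map_add]; exact hbP.add hbP',
      by rw [map_add, map_add, hbc, hbc']⟩
  smul_mem' := by
    rintro c' c ⟨b, hb, hbP, hbc⟩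
    obtain ⟨b', hb', hbc'⟩ := hS.lift c'
    refine ⟨b' * b, B.mul_mem hb' hb, ?_, ?_⟩
    · rw [map_mul]
      exact hbP.mul_left (hP.ord_nonneg hb')
    · rw [map_mul, hbc, hbc', smul_eq_mul, map_mul]

theorem mem_redIdeal_iff (hS : SpecialModel ρ B Rk) (P : Place L F) (hP : PC ι B P) (c : Rk) :
    c ∈ redIdeal hS P hP ↔ ∃ b ∈ B, InMax P (ι b) ∧ ρ b = algebraMap Rk Fk c := Iff.rfl

/-- chart functions minus their value -/
theorem sub_const_mem {b : V} (hb : b ∈ B) (a : A) : b - algebraMap A V a ∈ B :=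
  B.sub_mem hb (B.algebraMap_mem a)

theorem RedStr.iota_sub_const (hR : RedStr π ι ρ) (b : V) (a : A) :
    ι (b - algebraMap A V a) = ι b - algebraMap L F (a : L) := by
  rw [map_sub, hR.iota_alg]

theorem RedStr.rho_sub_const (hR : RedStr π ι ρ) (b : V) (a : A) :
    ρ (b - algebraMap A V a) = ρ b - algebraMap k Fk (π a) := by
  rw [map_sub, hR.rho_alg]

theorem one_notMem_redIdeal (hR : RedStr π ι ρ) (hS : SpecialModel ρ B Rk)
    (hker : ∀ b ∈ B, ρ b = 0 → ∃ μ : A, π μ = 0 ∧ ∃ b' ∈ B, b = μ • b')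
    (P : Place L F) (hP : PC ι B P) : (1 : Rk) ∉ redIdeal hS P hP := by
  rintro ⟨b, hb, hbP, hb1⟩
  rw [map_one] at hb1
  have h0 : ρ (b - 1) = 0 := by rw [map_sub, hb1, map_one, sub_self]
  obtain ⟨μ, hμ, b', hb', hbb'⟩ := hker (b - 1) (B.sub_mem hb B.one_mem) h0
  obtain ⟨a', ha'⟩ := hP b' hb'
  have e1 : ι b = 1 + algebraMap L F (μ : L) * ι b' := by
    have := congrArg ι hbb'
    rw [hR.iota_smul, map_sub, map_one] at this
    rw [← this]; ring
  have h2 : InMax P (algebraMap L F (μ : L) * (ι b' - algebraMap L F (a' : L))) :=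
    ha'.mul_left (ordGE_zero_iff.mp (ordGE_algebraMap _))
  have h3 : InMax P (algebraMap L F ((1 : L) + (μ : L) * (a' : L))) := by
    have e : algebraMap L F ((1 : L) + (μ : L) * (a' : L))
        = ι b - algebraMap L F (μ : L) * (ι b' - algebraMap L F (a' : L)) := by
      rw [e1, map_add, map_one, map_mul]; ring
    rw [e]
    exact hbP.sub h2
  have h4 : (1 : L) + (μ : L) * (a' : L) = 0 := by
    by_contra hne
    exact not_inMax_algebraMap hne h3
  have h5 : (1 : A) + μ * a' = 0 := Subtype.ext (by simpa using h4)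
  have h6 := congrArg π h5
  rw [map_add, map_one, map_mul, hμ, zero_mul, add_zero, map_zero] at h6
  exact one_ne_zero h6

theorem exists_sub_mem_redIdeal [Algebra k Rk] [IsScalarTower k Rk Fk] (hR : RedStr π ι ρ) (hS : SpecialModel ρ B Rk)
    (P : Place L F) (hP : PC ι B P) (c : Rk) :
    ∃ κ : k, c - algebraMap k Rk κ ∈ redIdeal hS P hP := by
  obtain ⟨b, hb, hbc⟩ := hS.lift c
  obtain ⟨a, ha⟩ := hP b hb
  refine ⟨π a, b - algebraMap A V a, sub_const_mem hb a, ?_, ?_⟩
  · rw [hR.iota_sub_const]; exact ha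
  · rw [hR.rho_sub_const, hbc, map_sub, ← IsScalarTower.algebraMap_apply]

theorem redIdeal_isMaximal [Algebra k Rk] [IsScalarTower k Rk Fk] (hR : RedStr π ι ρ) (hS : SpecialModel ρ B Rk)
    (hker : ∀ b ∈ B, ρ b = 0 → ∃ μ : A, π μ = 0 ∧ ∃ b' ∈ B, b = μ • b')
    (P : Place L F) (hP : PC ι B P) : (redIdeal hS P hP).IsMaximal := by
  rw [Ideal.isMaximal_iff]
  refine ⟨one_notMem_redIdeal hR hS hker P hP, fun J c hle hc hcJ => ?_⟩
  obtain ⟨κ, hκ⟩ := exists_sub_mem_redIdeal hR hS P hP c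
  have hκ0 : κ ≠ 0 := by
    rintro rfl
    rw [map_zero, sub_zero] at hκ
    exact hc hκ
  have h1 : algebraMap k Rk κ ∈ J := by
    have := J.sub_mem hcJ (hle hκ)
    rwa [sub_sub_cancel] at this
  have h2 := J.mul_mem_left (algebraMap k Rk κ⁻¹) h1
  rwa [← map_mul, inv_mul_cancel₀ hκ0, map_one] at h2

theorem redIdeal_ne_bot [Algebra k Rk] [IsScalarTower k Rk Fk] (hR : RedStr π ι ρ) (hS : SpecialModel ρ B Rk)
    {x : V} (hx : x ∈ B) (hxk : ∀ c : k, ρ x ≠ algebraMap k Fk c)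
    (P : Place L F) (hP : PC ι B P) : redIdeal hS P hP ≠ ⊥ := by
  intro hbot
  obtain ⟨c, hc⟩ := hS.mem x hx
  obtain ⟨κ, hκ⟩ := exists_sub_mem_redIdeal hR hS P hP c
  rw [hbot, Ideal.mem_bot, sub_eq_zero] at hκ
  apply hxk κ
  rw [← hc, hκ, ← IsScalarTower.algebraMap_apply]

end RedIdeal

section Special

variable {B : Subalgebra A V}
variable {Rk : Type*} [CommRing Rk] [IsDedekindDomain Rk] [Algebra Rk Fk] [IsFractionRing Rk Fk]
  [Algebra k Rk] [IsScalarTower k Rk Fk]

/-- **Existence of the reduction of a point** on a chart whose special fibre is Dedekind. -/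
theorem SpecialModel.exists_red (hS : SpecialModel ρ B Rk) (hR : RedStr π ι ρ)
    (hker : ∀ b ∈ B, ρ b = 0 → ∃ μ : A, π μ = 0 ∧ ∃ b' ∈ B, b = μ • b')
    {x : V} (hx : x ∈ B) (hxk : ∀ c : k, ρ x ≠ algebraMap k Fk c)
    (P : Place L F) (hP : PC ι B P) :
    ∃ Q : Place k Fk, QC ρ B Q ∧ RedTo π ι ρ B P Q := by
  have hmax := redIdeal_isMaximal hR hS hker P hP
  let 𝔮 : HeightOneSpectrum Rk :=
    ⟨redIdeal hS P hP, hmax.isPrime, redIdeal_ne_bot hR hS hx hxk P hP⟩
  refine ⟨Place.ofHeightOneSpectrum (K := k) 𝔮, fun b hb => ?_, fun b hb a ha => ?_⟩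
  · obtain ⟨c, hc⟩ := hS.mem b hb
    rw [← hc]
    exact ord_nonneg_ofHeightOneSpectrum 𝔮 c
  · obtain ⟨c, hc⟩ := hS.mem _ (sub_const_mem hb a)
    rw [← hR.rho_sub_const, ← hc, inMax_ofHeightOneSpectrum_iff]
    exact ⟨b - algebraMap A V a, sub_const_mem hb a, by rw [hR.iota_sub_const]; exact ha,
      hc.symm⟩

end Special

/-- **A chart from Dedekind models of its two fibres.** -/
theorem chart_of_models {B : Subalgebra A V} {x : V}
    {R : Type*} [CommRing R] [IsDedekindDomain R] [Algebra R F] [IsFractionRing R F]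
    [Algebra L R] [IsScalarTower L R F]
    {Rk : Type*} [CommRing Rk] [IsDedekindDomain Rk] [Algebra Rk Fk] [IsFractionRing Rk Fk]
    [Algebra k Rk] [IsScalarTower k Rk Fk]
    (hR : RedStr π ι ρ) (hG : GenericModel ι B R) (hS : SpecialModel ρ B Rk)
    (hx : x ∈ B) (hxk : ∀ c : k, ρ x ≠ algebraMap k Fk c)
    (hker : ∀ b ∈ B, ρ b = 0 → ∃ μ : A, π μ = 0 ∧ ∃ b' ∈ B, b = μ • b')
    (hfin : ∀ g : A[X], g.Monic → ∃ (r : ℕ) (e' : Fin r → V), (∀ j, e' j ∈ B) ∧
      ∀ z ∈ B, ∃ α : Fin r → A, ∃ z' ∈ B, z = ∑ j, α j • e' j + aeval x g * z') :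
    Chart π ι ρ B x where
  x_mem := hx
  ker := hker
  fin := hfin
  Q_loc := hS.Q_loc
  P_unif := hG.P_unif
  P_sep := hG.P_sep
  exists_red := hS.exists_red hR hker hx hxk

end ChartOf

section FinOfSpan

variable {L : Type*} [Field L] {A : ValuationSubring L}
variable {V : Type*} [CommRing V] [Algebra A V]

/-- If the chart `B` is spanned over `A[x]` by finitely many elements then `B / g(x) B` is a
finitely generated `A`-module for every monic `g` (the field `fin` of `Chart`). -/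
theorem fin_of_span {B : Subalgebra A V} {x : V} (hx : x ∈ B) {n : ℕ} (e : Fin n → V)
    (he : ∀ j, e j ∈ B) (hspan : ∀ z ∈ B, ∃ p : Fin n → A[X], z = ∑ j, aeval x (p j) * e j) :
    ∀ g : A[X], g.Monic → ∃ (r : ℕ) (e' : Fin r → V), (∀ j, e' j ∈ B) ∧
      ∀ z ∈ B, ∃ α : Fin r → A, ∃ z' ∈ B, z = ∑ j, α j • e' j + aeval x g * z' := by
  intro g hg
  set d := g.natDegree with hd
  have haev : ∀ p : A[X], aeval x p ∈ B := fun p => by
    have := (aeval (⟨x, hx⟩ : B) p).2
    rwa [← Subalgebra.aeval_coe] at this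
  refine ⟨(d + 1) * n, fun t => x ^ ((finProdFinEquiv.symm t).1 : ℕ) * e (finProdFinEquiv.symm t).2,
    fun t => B.mul_mem (B.pow_mem hx _) (he _), fun z hz => ?_⟩
  obtain ⟨p, hp⟩ := hspan z hz
  refine ⟨fun t => (p (finProdFinEquiv.symm t).2 %ₘ g).coeff ((finProdFinEquiv.symm t).1 : ℕ),
    ∑ j, aeval x (p j /ₘ g) * e j,
    B.sum_mem fun j _ => B.mul_mem (haev _) (he j), ?_⟩
  have h1 : ∀ j, aeval x (p j) = aeval x (p j %ₘ g) + aeval x g * aeval x (p j /ₘ g) := by
    intro j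
    conv_lhs => rw [← modByMonic_add_div (p j) g]
    rw [map_add, map_mul]
  have h2 : ∀ j, aeval x (p j %ₘ g) = ∑ i : Fin (d + 1), (p j %ₘ g).coeff (i : ℕ) • x ^ (i : ℕ) := by
    intro j
    rw [aeval_eq_sum_range' (Nat.lt_succ_of_le (natDegree_modByMonic_le (p j) hg)),
      Finset.sum_range]
  rw [← Equiv.sum_comp finProdFinEquiv, Fintype.sum_prod_type, Finset.sum_comm, hp,
    Finset.mul_sum, ← Finset.sum_add_distrib]
  refine Finset.sum_congr rfl fun j _ => ?_
  rw [h1 j, h2 j, add_mul, Finset.sum_mul]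
  congr 1
  · refine Finset.sum_congr rfl fun i _ => ?_
    simp only [Equiv.symm_apply_apply, smul_mul_assoc]
  · ring

end FinOfSpan

end Fermat.Agent.S37.H518
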