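import Mathlib
import Fermat.Agent.S24.H504.Residue

/-!
# S37 / RIM (helper518): "vanishing to order at least `n`" at a place

`OrdGE v n f` means `f = 0 ∨ n ≤ v.ord f`.  This removes the junk value `ord 0 = 0` from all
ultrametric arguments.  Built on helper504's `PlaceOrd` / `Residue` API (on main).
-/

set_option autoImplicit false

namespace Fermat.Agent.S37.H518

open AlgebraicCurve Fermat.Agent.S24.H504

variable {K F : Type*} [Field K] [Field F] [Algebra K F] (v : Place K F)

/-- `f` vanishes to order at least `n` at `v` (and `0` vanishes to every order). -/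
def OrdGE (n : ℤ) (f : F) : Prop := f = 0 ∨ n ≤ v.ord f

variable {v}

theorem ordGE_zero_right (n : ℤ) : OrdGE v n (0 : F) := Or.inl rfl

theorem OrdGE.mono {m n : ℤ} {f : F} (h : OrdGE v n f) (hmn : m ≤ n) : OrdGE v m f := by
  rcases h with rfl | h
  · exact ordGE_zero_right m
  · exact Or.inr (hmn.trans h)

theorem ordGE_of_ord {n : ℤ} {f : F} (h : n ≤ v.ord f) : OrdGE v n f := Or.inr h

theorem OrdGE.le_ord {n : ℤ} {f : F} (h : OrdGE v n f) (hf : f ≠ 0) : n ≤ v.ord f :=
  h.resolve_left hf

theorem ordGE_zero_iff {f : F} : OrdGE v 0 f ↔ 0 ≤ v.ord f := by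
  constructor
  · rintro (rfl | h)
    · simp
    · exact h
  · exact fun h => Or.inr h

theorem ordGE_one_iff {f : F} : OrdGE v 1 f ↔ InMax v f := by
  unfold OrdGE InMax
  constructor
  · rintro (h | h)
    · exact Or.inl h
    · exact Or.inr (by omega)
  · rintro (h | h)
    · exact Or.inl h
    · exact Or.inr (by omega)

theorem OrdGE.add {n : ℤ} {f g : F} (hf : OrdGE v n f) (hg : OrdGE v n g) :
    OrdGE v n (f + g) := by
  rcases eq_or_ne f 0 with rfl | hf0
  · rwa [zero_add]
  rcases eq_or_ne g 0 with rfl | hg0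
  · rwa [add_zero]
  by_cases h0 : f + g = 0
  · exact Or.inl h0
  exact Or.inr ((le_min (hf.resolve_left hf0) (hg.resolve_left hg0)).trans
    (ord_add_ge v hf0 hg0 h0))

theorem OrdGE.neg {n : ℤ} {f : F} (hf : OrdGE v n f) : OrdGE v n (-f) := by
  rcases hf with rfl | hf
  · simpa using ordGE_zero_right (v := v) n
  · exact Or.inr (by rwa [ord_neg])

theorem OrdGE.sub {n : ℤ} {f g : F} (hf : OrdGE v n f) (hg : OrdGE v n g) :
    OrdGE v n (f - g) := by
  rw [sub_eq_add_neg]
  exact hf.add hg.neg

theorem OrdGE.mul {m n : ℤ} {f g : F} (hf : OrdGE v m f) (hg : OrdGE v n g) :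
    OrdGE v (m + n) (f * g) := by
  rcases hf with rfl | hf
  · left; simp
  rcases hg with rfl | hg
  · left; simp
  rcases eq_or_ne f 0 with rfl | hf0
  · left; simp
  rcases eq_or_ne g 0 with rfl | hg0
  · left; simp
  right
  rw [v.ord_mul hf0 hg0]
  omega

theorem OrdGE.mul_left {n : ℤ} {f g : F} (hg : OrdGE v n g) (hf : OrdGE v 0 f) :
    OrdGE v n (f * g) := by
  simpa using hf.mul hg

theorem OrdGE.mul_right {n : ℤ} {f g : F} (hf : OrdGE v n f) (hg : OrdGE v 0 g) :
    OrdGE v n (f * g) := by
  simpa using hf.mul hg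

theorem ordGE_algebraMap (c : K) : OrdGE v 0 (algebraMap K F c) :=
  Or.inr (by rw [ord_algebraMap])

theorem OrdGE.const_mul {n : ℤ} {f : F} (hf : OrdGE v n f) (c : K) :
    OrdGE v n (algebraMap K F c * f) :=
  hf.mul_left (ordGE_algebraMap c)

theorem OrdGE.smul {n : ℤ} {f : F} (hf : OrdGE v n f) (c : K) : OrdGE v n (c • f) := by
  rw [Algebra.smul_def]
  exact hf.const_mul c

theorem ordGE_one_right : OrdGE v 0 (1 : F) := Or.inr (by simp)

theorem OrdGE.pow {n : ℤ} {f : F} (hf : OrdGE v n f) (k : ℕ) : OrdGE v (k * n) (f ^ k) := by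
  induction k with
  | zero => simpa using ordGE_one_right (v := v)
  | succ k ih =>
    rw [pow_succ]
    have := ih.mul hf
    convert this using 1
    push_cast
    ring

theorem ordGE_sum {ι : Type*} (s : Finset ι) {n : ℤ} (f : ι → F)
    (h : ∀ i ∈ s, OrdGE v n (f i)) : OrdGE v n (∑ i ∈ s, f i) := by
  classical
  induction s using Finset.induction_on with
  | empty => simpa using ordGE_zero_right (v := v) n
  | insert a s ha ih =>
    rw [Finset.sum_insert ha]
    exact (h a (Finset.mem_insert_self a s)).add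
      (ih fun i hi => h i (Finset.mem_insert_of_mem hi))

theorem ordGE_prod_nonneg {ι : Type*} (s : Finset ι) (f : ι → F)
    (h : ∀ i ∈ s, OrdGE v 0 (f i)) : OrdGE v 0 (∏ i ∈ s, f i) := by
  classical
  induction s using Finset.induction_on with
  | empty => simpa using ordGE_one_right (v := v)
  | insert a s ha ih =>
    rw [Finset.prod_insert ha]
    exact (h a (Finset.mem_insert_self a s)).mul_right
      (ih fun i hi => h i (Finset.mem_insert_of_mem hi))

theorem not_ordGE_of_ord_lt {n : ℤ} {f : F} (hf : f ≠ 0) (h : v.ord f < n) : ¬ OrdGE v n f := by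
  rintro (h0 | h1)
  · exact hf h0
  · omega

/-- Leading-term principle: a nonzero `f` plus something of strictly larger order has the
order of `f`. -/
theorem ord_add_of_ordGE {f g : F} (hf : f ≠ 0) (hg : OrdGE v (v.ord f + 1) g) :
    f + g ≠ 0 ∧ v.ord (f + g) = v.ord f := by
  rcases hg with rfl | hg
  · simpa using hf
  rcases eq_or_ne g 0 with rfl | hg0
  · simpa using hf
  have hlt : v.ord f < v.ord g := by omega
  have h := ord_add_eq_of_lt v hf hg0 hlt
  refine ⟨?_, h⟩
  intro h0
  have : g = -f := by linear_combination h0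
  rw [this, ord_neg] at hlt
  exact lt_irrefl _ hlt

theorem OrdGE.div {m n : ℤ} {f g : F} (hf : OrdGE v m f) (hg0 : g ≠ 0) (hg : v.ord g = n) :
    OrdGE v (m - n) (f / g) := by
  rcases hf with rfl | hf
  · left; simp
  rcases eq_or_ne f 0 with rfl | hf0
  · left; simp
  right
  rw [ord_div v hf0 hg0]
  omega

/-- The value of a function at a place is unique. -/
theorem value_unique {f : F} {c c' : K} (h : InMax v (f - algebraMap K F c))
    (h' : InMax v (f - algebraMap K F c')) : c = c' := by
  by_contra hne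
  have h1 : InMax v (algebraMap K F (c' - c)) := by
    have := h.sub h'
    have e : f - algebraMap K F c - (f - algebraMap K F c') = algebraMap K F (c' - c) := by
      rw [map_sub]; ring
    rwa [e] at this
  exact not_inMax_algebraMap (sub_ne_zero.mpr (Ne.symm hne)) h1

theorem inMax_of_ordGE {n : ℤ} {f : F} (hn : 1 ≤ n) (h : OrdGE v n f) : InMax v f :=
  ordGE_one_iff.mp (h.mono hn)

theorem InMax.ordGE {f : F} (h : InMax v f) : OrdGE v 1 f := ordGE_one_iff.mpr h

theorem InMax.ordGE_zero {f : F} (h : InMax v f) : OrdGE v 0 f :=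
  (InMax.ordGE h).mono (by norm_num)

/-- A unit (order `0`, nonzero) is not in the maximal ideal. -/
theorem not_inMax_of_ord_eq_zero {f : F} (hf : f ≠ 0) (h : v.ord f = 0) : ¬ InMax v f := by
  rintro (h0 | h1)
  · exact hf h0
  · omega

end Fermat.Agent.S37.H518
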