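import Fermat.Agent.S37.H518.Charts

/-!
# S37 / RIM (helper518): the reduction map on places of a two-chart model

* `TwoCharts.rmap` : places of the generic fibre → places of the special fibre;
* `TwoCharts.rmap_chart0 / rmap_chart1` : if `rmap P` is centred on a chart, so is `P`, and the
  values of chart functions are compatible;
* `TwoCharts.sum_le0 / sum_le1` : zeros only merge (`LocalChart.sum_ord_le` on each chart).
-/

set_option autoImplicit false

namespace Fermat.Agent.S37.H518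

open AlgebraicCurve Fermat.Agent.S24.H504 Polynomial

variable {L : Type*} [Field L] {A : ValuationSubring L} {k : Type*} [Field k]
variable {F : Type*} [Field F] [Algebra L F] {Fk : Type*} [Field Fk] [Algebra k Fk]
variable {V : Type*} [CommRing V] [Algebra A V]
variable {π : A →+* k} {ι : V →+* F} {ρ : V →+* Fk} {B₀ B₁ : Subalgebra A V} {x₀ x₁ : V}

/-- Assembling `LocalChart` from a `Chart` and finitely many places reducing to `Q`. -/
theorem Chart.localChart {B : Subalgebra A V} {x : V} (hR : RedStr π ι ρ)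
    (hQval : ∀ (Q : Place k Fk) (f : Fk), 0 ≤ Q.ord f → ∃ c : k, InMax Q (f - algebraMap k Fk c))
    (hc : Chart π ι ρ B x) {Q : Place k Fk} (hQ : QC ρ B Q) (S : Finset (Place L F))
    (hS : ∀ P ∈ S, PC ι B P ∧ RedTo π ι ρ B P Q) :
    LocalChart π ι ρ B Q (fun i : S => (i : Place L F)) where
  toRedStr := hR
  ker := hc.ker
  Q_int := hQ
  Q_loc := hc.Q_loc Q hQ
  Q_val := hQval Q
  P_inj := Subtype.val_injective
  P_int := fun i _ hb => (hS i.1 i.2).1.ord_nonneg hb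
  P_val := fun i b hb => (hS i.1 i.2).1 b hb
  P_red := fun i b hb a ha => (hS i.1 i.2).2 b hb a ha
  P_unif := fun i => hc.P_unif i.1 (hS i.1 i.2).1
  P_sep := fun i j hij => hc.P_sep i.1 j.1 (hS i.1 i.2).1 (hS j.1 j.2).1
    (fun e => hij (Subtype.ext e))

/-- Zeros only merge, on one chart. -/
theorem Chart.sum_le {B : Subalgebra A V} {x : V} (hR : RedStr π ι ρ)
    (hQval : ∀ (Q : Place k Fk) (f : Fk), 0 ≤ Q.ord f → ∃ c : k, InMax Q (f - algebraMap k Fk c))
    (hc : Chart π ι ρ B x) {Q : Place k Fk} (hQ : QC ρ B Q) (S : Finset (Place L F))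
    (hS : ∀ P ∈ S, PC ι B P ∧ RedTo π ι ρ B P Q) {y : V} (hy : y ∈ B) (hy0 : ρ y ≠ 0) :
    ∑ P ∈ S, P.ord (ι y) ≤ Q.ord (ρ y) := by
  have := (hc.localChart hR hQval hQ S hS).sum_ord_le hy hy0 hc.x_mem hc.fin
  rwa [Finset.sum_coe_sort S (fun P => P.ord (ι y))] at this

namespace TwoCharts

variable (h : TwoCharts π ι ρ B₀ B₁ x₀ x₁)

open Classical in
/-- The reduction map on places. -/
noncomputable def rmap (P : Place L F) : Place k Fk :=
  if hP : PC ι B₀ P then (h.chart0.exists_red P hP).choose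
  else (h.chart1.exists_red P ((h.cover_P P).resolve_left hP)).choose

theorem rmap_spec0 {P : Place L F} (hP : PC ι B₀ P) :
    QC ρ B₀ (h.rmap P) ∧ RedTo π ι ρ B₀ P (h.rmap P) := by
  rw [rmap, dif_pos hP]
  exact (h.chart0.exists_red P hP).choose_spec

theorem rmap_spec1 {P : Place L F} (hP : ¬ PC ι B₀ P) :
    PC ι B₁ P ∧ QC ρ B₁ (h.rmap P) ∧ RedTo π ι ρ B₁ P (h.rmap P) := by
  have hP1 : PC ι B₁ P := (h.cover_P P).resolve_left hP
  refine ⟨hP1, ?_⟩
  rw [rmap, dif_neg hP]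
  exact (h.chart1.exists_red P hP1).choose_spec

include h in
theorem mul_eq_one' : x₁ * x₀ = 1 := by rw [mul_comm]; exact h.mul_eq_one

theorem rmap_chart0 {P : Place L F} (hQ : QC ρ B₀ (h.rmap P)) :
    PC ι B₀ P ∧ RedTo π ι ρ B₀ P (h.rmap P) := by
  by_cases hP : PC ι B₀ P
  · exact ⟨hP, (h.rmap_spec0 hP).2⟩
  · obtain ⟨hP1, hQ1, hR1⟩ := h.rmap_spec1 hP
    exact transfer h.toRedStr h.chart1.x_mem h.chart0.x_mem h.mul_eq_one' h.trans10 hP1 hQ1 hR1 hQ

theorem rmap_chart1 {P : Place L F} (hQ : QC ρ B₁ (h.rmap P)) :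
    PC ι B₁ P ∧ RedTo π ι ρ B₁ P (h.rmap P) := by
  by_cases hP : PC ι B₀ P
  · obtain ⟨hQ0, hR0⟩ := h.rmap_spec0 hP
    exact transfer h.toRedStr h.chart0.x_mem h.chart1.x_mem h.mul_eq_one h.trans01 hP hQ0 hR0 hQ
  · obtain ⟨hP1, -, hR1⟩ := h.rmap_spec1 hP
    exact ⟨hP1, hR1⟩

theorem sum_le0 {Q : Place k Fk} (hQ : QC ρ B₀ Q) (S : Finset (Place L F))
    (hS : ∀ P ∈ S, h.rmap P = Q) {y : V} (hy : y ∈ B₀) (hy0 : ρ y ≠ 0) :
    ∑ P ∈ S, P.ord (ι y) ≤ Q.ord (ρ y) :=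
  h.chart0.sum_le h.toRedStr h.Q_val hQ S
    (fun P hP => by
      have := h.rmap_chart0 (P := P) (by rw [hS P hP]; exact hQ)
      rwa [hS P hP] at this) hy hy0

theorem sum_le1 {Q : Place k Fk} (hQ : QC ρ B₁ Q) (S : Finset (Place L F))
    (hS : ∀ P ∈ S, h.rmap P = Q) {y : V} (hy : y ∈ B₁) (hy0 : ρ y ≠ 0) :
    ∑ P ∈ S, P.ord (ι y) ≤ Q.ord (ρ y) :=
  h.chart1.sum_le h.toRedStr h.Q_val hQ S
    (fun P hP => by
      have := h.rmap_chart1 (P := P) (by rw [hS P hP]; exact hQ)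
      rwa [hS P hP] at this) hy hy0

end TwoCharts

end Fermat.Agent.S37.H518
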